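import Mathlib
import Fermat.Agent.S24.DiffSpan

/-!
# S36, brick A2 (K): the intrinsic quotient `du / dV` of a function field of one variable

`E` a field of characteristic zero, `L / E` a field, `t : L` with `L / E(t)` algebraic.  Then
`Ω[L⁄E] = L dt` (`S24/DiffSpan.span_D_eq_top`), so for every `x : L` there is `z : L` with
`dx = z • dt` (`exists_D_eq_smul`), and every "`σ`-derivation" `D : L → 𝕃` (`σ : L →+* 𝕃`,
`D (a b) = σ a * D b + σ b * D a`, `D` additive and zero on `E`) satisfies `D x = σ z * D t`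
(`sigma_deriv_eq`).  For `𝕃 = E((q))`, `σ` the `q`-expansion and `D = θ ∘ σ` this identifies
`z` with `θ(x) / θ(t)`.

Consequences used by the thickness-one brick of S36 (`u`, `V = w u` the two coordinates of level
`q M'`, `w` the Atkin-Lehner swap):

* `swap_mul_self` : for `du = Z dV`, `w Z * Z = 1`;
* `IsA2 E u V ℓ a` : `a = ℓ (V / u) (du / dV)`; `exists_isA2`;
* `IsA2.sigma_eq` : `σ a₂ * σ u * D' V = σ ℓ * σ V * D' u` for every `σ`-derivation;
* `IsA2.mul_swap` : `a₂ * w a₂ = ℓ ^ 2`.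
-/

set_option autoImplicit false
set_option linter.style.haveILetI false

noncomputable section

namespace Fermat.Agent.S36.A2

open KaehlerDifferential IntermediateField

variable {E L : Type*} [Field E] [Field L] [Algebra E L]

/-- `dx` is a multiple of `dt`. -/
theorem exists_D_eq_smul [CharZero E] (t : L) [Algebra.IsAlgebraic E⟮t⟯ L] (x : L) :
    ∃ z : L, D E L x = z • D E L t := by
  have h : D E L x ∈ Submodule.span L {D E L t} := by
    rw [Fermat.Agent.S24.DiffSpan.span_D_eq_top]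
    trivial
  obtain ⟨z, hz⟩ := Submodule.mem_span_singleton.mp h
  exact ⟨z, hz.symm⟩

/-- A "`σ`-derivation" factors through the Kähler differentials. -/
theorem sigma_deriv_eq {𝕃 : Type*} [CommRing 𝕃] (σ : L →+* 𝕃) (D' : L → 𝕃)
    (hadd : ∀ a b, D' (a + b) = D' a + D' b)
    (hmul : ∀ a b, D' (a * b) = σ a * D' b + σ b * D' a)
    (hE : ∀ c : E, D' (algebraMap E L c) = 0) {x t z : L}
    (h : D E L x = z • D E L t) : D' x = σ z * D' t := by
  letI : Module L 𝕃 := Module.compHom 𝕃 σ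
  letI : Module E 𝕃 := Module.compHom 𝕃 (σ.comp (algebraMap E L))
  haveI : IsScalarTower E L 𝕃 := ⟨fun c a m => by
    show σ (c • a) * m = σ (algebraMap E L c) * (σ a * m)
    rw [Algebra.smul_def, map_mul, mul_assoc]⟩
  have hone : D' 1 = 0 := by
    have := hE 1
    rwa [map_one] at this
  let Dd : Derivation E L 𝕃 :=
    { toFun := D'
      map_add' := hadd
      map_smul' := fun c a => by
        show D' (c • a) = σ (algebraMap E L c) * D' a
        rw [Algebra.smul_def, hmul, hE, mul_zero, add_zero]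
      map_one_eq_zero' := hone
      leibniz' := fun a b => by
        show D' (a * b) = σ a * D' b + σ b * D' a
        exact hmul a b }
  have h1 : Dd.liftKaehlerDifferential (D E L x) = D' x :=
    Derivation.liftKaehlerDifferential_comp_D Dd x
  have h2 : Dd.liftKaehlerDifferential (D E L t) = D' t :=
    Derivation.liftKaehlerDifferential_comp_D Dd t
  rw [← h1, h, map_smul, h2]
  rfl

/-- The swap `w` inverts the quotient `Z = du / dV`: `w Z * Z = 1`.  (`𝕃` a domain, `σ` injective,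
`D' V ≠ 0`: e.g. `σ` the `q`-expansion, `D' = θ ∘ σ`.) -/
theorem swap_mul_self {𝕃 : Type*} [CommRing 𝕃] [IsDomain 𝕃] (σ : L →+* 𝕃) (D' : L → 𝕃)
    (hadd : ∀ a b, D' (a + b) = D' a + D' b)
    (hmul : ∀ a b, D' (a * b) = σ a * D' b + σ b * D' a)
    (hE : ∀ c : E, D' (algebraMap E L c) = 0) (w : L ≃ₐ[E] L) {u V Z : L}
    (hwu : w u = V) (hwV : w V = u) (hV : D' V ≠ 0)
    (h : D E L u = Z • D E L V) : w Z * Z = 1 := by
  have h1 : D' u = σ Z * D' V := sigma_deriv_eq σ D' hadd hmul hE h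
  have h2 : (D' ∘ w) u = (σ.comp (w : L →+* L)) Z * (D' ∘ w) V :=
    sigma_deriv_eq (σ.comp (w : L →+* L)) (D' ∘ w)
      (fun a b => by simp only [Function.comp_apply, map_add, hadd])
      (fun a b => by
        simp only [Function.comp_apply, map_mul, hmul, RingHom.comp_apply, RingHom.coe_coe])
      (fun c => by simp only [Function.comp_apply, AlgEquiv.commutes, hE]) h
  simp only [Function.comp_apply, hwu, hwV, RingHom.comp_apply, RingHom.coe_coe] at h2
  rw [h1] at h2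
  have h3 : (σ (w Z * Z) - 1) * D' V = 0 := by
    rw [map_mul, sub_mul, one_mul, mul_assoc, ← h2, sub_self]
  rcases mul_eq_zero.mp h3 with h4 | h4
  · have h5 : σ (w Z * Z) = σ 1 := by rw [map_one]; exact sub_eq_zero.mp h4
    exact σ.injective h5
  · exact absurd h4 hV

/-- **The element `a₂`**, intrinsically: `a = ℓ (V / u) (du / dV)`. -/
def IsA2 (E : Type*) {L : Type*} [Field E] [Field L] [Algebra E L] (u V ℓ a : L) : Prop :=
  ∃ Z : L, a * u = ℓ * V * Z ∧ D E L u = Z • D E L V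

/-- `a₂` exists (and is unique when `u ≠ 0`, `dV ≠ 0`). -/
theorem exists_isA2 [CharZero E] (u V : L) [Algebra.IsAlgebraic E⟮V⟯ L] (hu : u ≠ 0) (ℓ : L) :
    ∃ a : L, IsA2 E u V ℓ a := by
  obtain ⟨Z, hZ⟩ := exists_D_eq_smul (E := E) V u
  exact ⟨ℓ * V * Z / u, Z, div_mul_cancel₀ _ hu, hZ⟩

/-- The expansion of `a₂` under a `σ`-derivation: `σ a₂ * σ u * D' V = σ ℓ * σ V * D' u`
(for `D' = θ ∘ σ`, `V = V_q u`, `ℓ = q`: `a₂ = G₂(τ) / G₂(qτ)`, `G₂ = - θ u / u`). -/
theorem IsA2.sigma_eq {u V ℓ a : L} (h : IsA2 E u V ℓ a) {𝕃 : Type*} [CommRing 𝕃]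
    (σ : L →+* 𝕃) (D' : L → 𝕃) (hadd : ∀ a b, D' (a + b) = D' a + D' b)
    (hmul : ∀ a b, D' (a * b) = σ a * D' b + σ b * D' a)
    (hE : ∀ c : E, D' (algebraMap E L c) = 0) :
    σ a * σ u * D' V = σ ℓ * σ V * D' u := by
  obtain ⟨Z, h1, hZ⟩ := h
  have h2 : D' u = σ Z * D' V := sigma_deriv_eq σ D' hadd hmul hE hZ
  rw [← map_mul, h1, map_mul, map_mul, h2]
  ring

/-- `a₂ * w a₂ = ℓ ^ 2` for the swap `w` (so `div a₂ = 2 p₀` once `a₂` is a unit at `p_∞`). -/
theorem IsA2.mul_swap {u V ℓ a : L} (h : IsA2 E u V ℓ a) (hu : u ≠ 0) (hV0 : V ≠ 0)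
    {𝕃 : Type*} [CommRing 𝕃] [IsDomain 𝕃]
    (σ : L →+* 𝕃) (D' : L → 𝕃) (hadd : ∀ a b, D' (a + b) = D' a + D' b)
    (hmul : ∀ a b, D' (a * b) = σ a * D' b + σ b * D' a)
    (hE : ∀ c : E, D' (algebraMap E L c) = 0) (hV : D' V ≠ 0)
    (w : L ≃ₐ[E] L) (hwu : w u = V) (hwV : w V = u) (hwℓ : w ℓ = ℓ) : a * w a = ℓ ^ 2 := by
  obtain ⟨Z, h1, hZ⟩ := h
  have h2 : w Z * Z = 1 := swap_mul_self σ D' hadd hmul hE w hwu hwV hV hZ
  have h3 : w a * V = ℓ * u * w Z := by
    have := congrArg w h1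
    rwa [map_mul, map_mul, map_mul, hwu, hwV, hwℓ] at this
  have h4 : (a * w a - ℓ ^ 2) * (u * V) = 0 := by
    linear_combination (w a * V) * h1 + (ℓ * V * Z) * h3 + (ℓ ^ 2 * u * V) * h2
  rcases mul_eq_zero.mp h4 with h5 | h5
  · exact sub_eq_zero.mp h5
  · exact absurd h5 (mul_ne_zero hu hV0)

end Fermat.Agent.S36.A2
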