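import Mathlib
import Fermat.Agent.S30.Model.Main
import Fermat.Agent.S30.E2.HorizGen

/-!
# S36, brick A2 (U): derivations preserve the local rings at unramified points (characteristic 0)

* `der_mem_of_formallyUnramified` : `S` formally unramified over `R`, `δ : S → Ω` additive with
  the Leibniz rule into an `S`-module, `N ≤ Ω` an `S`-submodule containing `δ (R)`; then
  `δ (S) ⊆ N`.  (The induced map `S → Ω ⧸ N` is an `R`-derivation, and `Ω[S⁄R] = 0`.)
* `exists_mem_differentIdeal` : in the setting of `Model.UnramAt` for `A = E[t]`, `K = E(t)`,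
  `B` the integral closure of `A` in `L`: the trace discriminant of an integral family lies in
  Mathlib's `differentIdeal A B`.
* `isUnramifiedAt_of_unramAt` : hence `Model.UnramAt E(t) E[t] r` (`r` irreducible) implies
  `Algebra.IsUnramifiedAt E[t] P` for every prime `P ∋ r` of `B`
  (`not_dvd_differentIdeal_iff`).
* `exists_smul_D_eq_of_unramAt` : then for every `x ∈ B` there are `s, c ∈ B`, `s ∉ P`, with
  `s • dx = c • dt` in `Ω[L⁄E]`: "`dx / dt` is integral at `P`".
-/

set_option autoImplicit false
set_option linter.style.haveILetI false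
set_option linter.unusedSectionVars false

noncomputable section

namespace Fermat.Agent.S36.A2

open IntermediateField Polynomial KaehlerDifferential
open scoped IntermediateField.algebraAdjoinAdjoin nonZeroDivisors
open Fermat.Agent.S30.Model

/-! ### Derivations out of a formally unramified algebra -/

section Abstract

variable {R S Ω : Type*} [CommRing R] [CommRing S] [Algebra R S] [AddCommGroup Ω] [Module S Ω]

/-- If `S` is formally unramified over `R`, an additive Leibniz map `δ : S → Ω` which sends `R`
into the `S`-submodule `N` sends all of `S` into `N`. -/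
theorem der_mem_of_formallyUnramified [Algebra.FormallyUnramified R S] (δ : S → Ω)
    (hadd : ∀ a b, δ (a + b) = δ a + δ b) (hmul : ∀ a b, δ (a * b) = a • δ b + b • δ a)
    (N : Submodule S Ω) (hR : ∀ r : R, δ (algebraMap R S r) ∈ N) (x : S) : δ x ∈ N := by
  letI : Module R (Ω ⧸ N) := Module.compHom (Ω ⧸ N) (algebraMap R S)
  haveI : IsScalarTower R S (Ω ⧸ N) := ⟨fun r s m => by
    show (r • s) • m = algebraMap R S r • (s • m)
    rw [Algebra.smul_def, mul_smul]⟩
  let d : Derivation R S (Ω ⧸ N) :=
    { toFun := fun s => (Submodule.Quotient.mk (δ s) : Ω ⧸ N)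
      map_add' := fun a b => by
        show (Submodule.Quotient.mk (δ (a + b)) : Ω ⧸ N) =
          (Submodule.Quotient.mk (δ a) : Ω ⧸ N) + (Submodule.Quotient.mk (δ b) : Ω ⧸ N)
        rw [hadd, Submodule.Quotient.mk_add]
      map_smul' := fun r s => by
        show (Submodule.Quotient.mk (δ (r • s)) : Ω ⧸ N) =
          algebraMap R S r • (Submodule.Quotient.mk (δ s) : Ω ⧸ N)
        have h0 : (Submodule.Quotient.mk (s • δ (algebraMap R S r)) : Ω ⧸ N) = 0 :=
          (Submodule.Quotient.mk_eq_zero N).mpr (N.smul_mem s (hR r))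
        rw [Algebra.smul_def, hmul, Submodule.Quotient.mk_add, Submodule.Quotient.mk_smul, h0,
          add_zero]
      map_one_eq_zero' := by
        show (Submodule.Quotient.mk (δ 1) : Ω ⧸ N) = 0
        rw [Submodule.Quotient.mk_eq_zero]
        have := hR 1
        rwa [map_one] at this
      leibniz' := fun a b => by
        show (Submodule.Quotient.mk (δ (a * b)) : Ω ⧸ N) =
          a • (Submodule.Quotient.mk (δ b) : Ω ⧸ N) + b • (Submodule.Quotient.mk (δ a) : Ω ⧸ N)
        rw [hmul, Submodule.Quotient.mk_add, Submodule.Quotient.mk_smul,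
          Submodule.Quotient.mk_smul] }
  have h1 : d x = 0 := by
    rw [← Derivation.liftKaehlerDifferential_comp_D d x, Subsingleton.elim (D R S x) 0, map_zero]
  exact (Submodule.Quotient.mk_eq_zero N).mp h1

end Abstract

/-! ### The generic fibre: `A = E[t]`, `B` its integral closure in `L` -/

section Concrete

variable {E L : Type*} [Field E] [Field L] [Algebra E L] [CharZero E] (t : L)
  [FiniteDimensional E⟮t⟯ L]

local instance pidAdjoin : IsPrincipalIdealRing (Algebra.adjoin E {t}) :=
  Fermat.Agent.S30.E2.HorizGen.isPrincipalIdealRing_adjoin t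

local instance fracClosure : IsFractionRing (integralClosure (Algebra.adjoin E {t}) L) L :=
  IsIntegralClosure.isFractionRing_of_finite_extension (Algebra.adjoin E {t}) E⟮t⟯ L _

local instance dedClosure : IsDedekindDomain (integralClosure (Algebra.adjoin E {t}) L) :=
  integralClosure.isDedekindDomain (Algebra.adjoin E {t}) E⟮t⟯ L

local instance finClosure :
    Module.Finite (Algebra.adjoin E {t}) (integralClosure (Algebra.adjoin E {t}) L) :=
  IsIntegralClosure.finite (Algebra.adjoin E {t}) E⟮t⟯ L _

/-- The trace discriminant of an integral family of `[L : E(t)]` elements lies in the different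
ideal of `B / E[t]`. -/
theorem exists_mem_differentIdeal (b : Fin (Module.finrank E⟮t⟯ L) → L)
    (hb : ∀ i, IsIntegral (Algebra.adjoin E {t}) (b i))
    (hdet : (Algebra.traceMatrix E⟮t⟯ b).det ≠ 0) (d : Algebra.adjoin E {t})
    (hd : ((Algebra.traceMatrix E⟮t⟯ b).det : L) = d) :
    algebraMap (Algebra.adjoin E {t}) (integralClosure (Algebra.adjoin E {t}) L) d ∈
      differentIdeal (Algebra.adjoin E {t}) (integralClosure (Algebra.adjoin E {t}) L) := by
  classical
  have hli : LinearIndependent E⟮t⟯ b := by
    by_contra h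
    exact hdet (by rw [← Algebra.discr_def]; exact Algebra.discr_zero_of_not_linearIndependent _ h)
  haveI : Nonempty (Fin (Module.finrank E⟮t⟯ L)) := Fin.pos_iff_nonempty.mp Module.finrank_pos
  let bb : Module.Basis (Fin (Module.finrank E⟮t⟯ L)) E⟮t⟯ L :=
    basisOfLinearIndependentOfCardEqFinrank hli (by simp)
  have hbb : ⇑bb = b := coe_basisOfLinearIndependentOfCardEqFinrank hli _
  have hmem : (d : L) ∈ (1 / Submodule.traceDual (Algebra.adjoin E {t}) E⟮t⟯
      (1 : Submodule (integralClosure (Algebra.adjoin E {t}) L) L) :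
        Submodule (integralClosure (Algebra.adjoin E {t}) L) L) := by
    rw [Submodule.mem_div_iff_forall_mul_mem]
    intro x hx
    have h1 := isIntegral_discr_mul_of_mem_traceDual (A := Algebra.adjoin E {t}) (K := E⟮t⟯)
      (1 : Submodule (integralClosure (Algebra.adjoin E {t}) L) L) (b := bb)
      (by rw [hbb]; exact hb) (Submodule.one_le.mp le_rfl) hx
    rw [Algebra.discr_def, hbb, Algebra.smul_def, mul_one] at h1
    have h2 : (algebraMap E⟮t⟯ L) (Algebra.traceMatrix E⟮t⟯ b).det = (d : L) := hd
    rw [h2] at h1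
    rw [Submodule.mem_one]
    exact ⟨⟨(d : L) * x, h1⟩, rfl⟩
  rw [← coeSubmodule_differentIdeal (Algebra.adjoin E {t}) E⟮t⟯
    (integralClosure (Algebra.adjoin E {t}) L)] at hmem
  obtain ⟨y, hy, hyd⟩ := (IsLocalization.mem_coeSubmodule _ _).mp hmem
  have hyeq : y = algebraMap (Algebra.adjoin E {t}) (integralClosure (Algebra.adjoin E {t}) L) d :=
    Subtype.ext hyd
  rwa [← hyeq]

attribute [local instance] FractionRing.liftAlgebra FractionRing.isScalarTower_liftAlgebra

local instance sepFraction : Algebra.IsSeparable (FractionRing (Algebra.adjoin E {t}))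
    (FractionRing (integralClosure (Algebra.adjoin E {t}) L)) := by
  haveI : CharZero (Algebra.adjoin E {t}) :=
    charZero_of_injective_algebraMap (algebraMap E (Algebra.adjoin E {t})).injective
  haveI : CharZero (FractionRing (Algebra.adjoin E {t})) :=
    charZero_of_injective_algebraMap (IsFractionRing.injective (Algebra.adjoin E {t}) _)
  haveI : Algebra.IsAlgebraic (FractionRing (Algebra.adjoin E {t}))
      (FractionRing (integralClosure (Algebra.adjoin E {t}) L)) := inferInstance
  infer_instance

/-- `Model.UnramAt` at an irreducible `r ∈ E[t]` gives Mathlib's `Algebra.IsUnramifiedAt` at every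
prime of `B` containing `r`. -/
theorem isUnramifiedAt_of_unramAt (r : Algebra.adjoin E {t}) (hr : Irreducible r)
    (hU : UnramAt E⟮t⟯ (Algebra.adjoin E {t}) (r : L))
    (P : Ideal (integralClosure (Algebra.adjoin E {t}) L)) [P.IsPrime]
    (hP : algebraMap (Algebra.adjoin E {t}) (integralClosure (Algebra.adjoin E {t}) L) r ∈ P) :
    Algebra.IsUnramifiedAt (Algebra.adjoin E {t}) P := by
  obtain ⟨b, hb, d, hdA, hdet, hnd⟩ := hU
  have hd0 : d ≠ 0 := fun h0 => hnd 0 (zero_mem _) (by rw [h0, mul_zero])
  have hdet0 : (Algebra.traceMatrix E⟮t⟯ b).det ≠ 0 := by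
    intro h0
    apply hd0
    rw [← hdet, h0]
    rfl
  have hmem := exists_mem_differentIdeal t b hb hdet0 ⟨d, hdA⟩ hdet
  have hnotP : algebraMap (Algebra.adjoin E {t}) (integralClosure (Algebra.adjoin E {t}) L)
      ⟨d, hdA⟩ ∉ P := by
    intro hdP
    have hmax : (Ideal.span {r}).IsMaximal := PrincipalIdealRing.isMaximal_of_irreducible hr
    have hle : Ideal.span {r} ≤ P.comap
        (algebraMap (Algebra.adjoin E {t}) (integralClosure (Algebra.adjoin E {t}) L)) := by
      rw [Ideal.span_singleton_le_iff_mem]
      exact hP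
    have hne : P.comap
        (algebraMap (Algebra.adjoin E {t}) (integralClosure (Algebra.adjoin E {t}) L)) ≠ ⊤ :=
      Ideal.comap_ne_top _ (Ideal.IsPrime.ne_top inferInstance)
    have heq := hmax.eq_of_le hne hle
    have h1 : (⟨d, hdA⟩ : Algebra.adjoin E {t}) ∈ Ideal.span {r} := by
      rw [heq]
      exact hdP
    obtain ⟨c, hc⟩ := Ideal.mem_span_singleton'.mp h1
    refine hnd c c.2 ?_
    have h2 := congrArg (Subtype.val) hc
    simp only [Subalgebra.coe_mul] at h2
    rw [← h2, mul_comm]
  rw [← not_dvd_differentIdeal_iff]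
  intro hdvd
  exact hnotP (Ideal.le_of_dvd hdvd hmem)

/-- **Derivations preserve the local ring at an unramified prime.**  If the prime `P` of `B` is
unramified over `E[t]`, then for every `x ∈ B` the quotient `dx / dt` lies in `B_P`:
`s • dx = c • dt` with `s, c ∈ B`, `s ∉ P`. -/
theorem exists_smul_D_eq (P : Ideal (integralClosure (Algebra.adjoin E {t}) L)) [P.IsPrime]
    (hU : Algebra.IsUnramifiedAt (Algebra.adjoin E {t}) P)
    (x : integralClosure (Algebra.adjoin E {t}) L) :
    ∃ s c : integralClosure (Algebra.adjoin E {t}) L, s ∉ P ∧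
      (s : L) • D E L (x : L) = (c : L) • D E L t := by
  have hunit : ∀ y : P.primeCompl,
      IsUnit (algebraMap (integralClosure (Algebra.adjoin E {t}) L) L y) := by
    intro y
    refine IsUnit.mk0 _ ?_
    intro h0
    have h1 : (y : integralClosure (Algebra.adjoin E {t}) L) = 0 :=
      Subtype.ext h0
    exact y.2 (by rw [h1]; exact P.zero_mem)
  let g : Localization.AtPrime P →+* L := IsLocalization.lift (M := P.primeCompl) hunit
  have hg : ∀ z : integralClosure (Algebra.adjoin E {t}) L,
      g (algebraMap _ (Localization.AtPrime P) z) = (z : L) := fun z => IsLocalization.lift_eq hunit z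
  letI : Module (Localization.AtPrime P) Ω[L⁄E] := Module.compHom _ g
  have hsmul : ∀ (c : Localization.AtPrime P) (ω : Ω[L⁄E]), c • ω = g c • ω := fun _ _ => rfl
  have hgA : ∀ r : Algebra.adjoin E {t},
      g (algebraMap (Algebra.adjoin E {t}) (Localization.AtPrime P) r) = (r : L) := by
    intro r
    rw [IsScalarTower.algebraMap_apply (Algebra.adjoin E {t})
      (integralClosure (Algebra.adjoin E {t}) L) (Localization.AtPrime P), hg]
    rfl
  haveI : Algebra.FormallyUnramified (Algebra.adjoin E {t}) (Localization.AtPrime P) := hU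
  have key := der_mem_of_formallyUnramified (R := Algebra.adjoin E {t})
    (S := Localization.AtPrime P) (fun z => D E L (g z))
    (fun a b => by simp only [map_add])
    (fun a b => by
      simp only [map_mul, Derivation.leibniz, hsmul])
    (Submodule.span (Localization.AtPrime P) {D E L t})
    (by
      intro r
      obtain ⟨p, hp⟩ := Fermat.Agent.S30.E2.HorizGen.exists_eq_aeval t r
      show D E L (g (algebraMap (Algebra.adjoin E {t}) (Localization.AtPrime P) r)) ∈ _
      rw [hgA, hp, Derivation.map_aeval]
      have h1 : (aeval t (derivative p) : L) • D E L t =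
          algebraMap (Algebra.adjoin E {t}) (Localization.AtPrime P)
            ⟨aeval t (derivative p), Fermat.Agent.S30.E2.HorizGen.aeval_mem t _⟩ • D E L t := by
        rw [hsmul, hgA]
      rw [h1]
      exact Submodule.smul_mem _ _ (Submodule.subset_span rfl))
    (algebraMap _ (Localization.AtPrime P) x)
  simp only [hg] at key
  obtain ⟨c, hc⟩ := Submodule.mem_span_singleton.mp key
  obtain ⟨⟨c0, s⟩, hcs⟩ := IsLocalization.surj P.primeCompl c
  have h2 : g c * (s : L) = (c0 : L) := by
    have := congrArg g hcs
    rwa [map_mul, hg, hg] at this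
  refine ⟨s, c0, s.2, ?_⟩
  rw [← hc, hsmul, smul_smul, mul_comm, h2]

/-- **Horizontal integrality of `dx / dt`.**  Under `Model.HorizUnram S t`, at every nonzero
prime `P` of `B` (a closed point of the generic fibre) which does not lie over one of the points
`t = c`, `c ∈ S`: for every `x ∈ B`, `s • dx = c • dt` with `s, c ∈ B`, `s ∉ P`. -/
theorem exists_smul_D_eq_of_horizUnram {O : Type*} [CommRing O] [Algebra O E] [Algebra O L]
    [IsScalarTower O E L] (S : Finset O) (hH : HorizUnram (E := E) S t) (ht : Transcendental E t)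
    (P : Ideal (integralClosure (Algebra.adjoin E {t}) L)) [P.IsPrime] (hP0 : P ≠ ⊥)
    (hS : ∀ c ∈ S, ∀ z : integralClosure (Algebra.adjoin E {t}) L,
      (z : L) = t - algebraMap O L c → z ∉ P)
    (x : integralClosure (Algebra.adjoin E {t}) L) :
    ∃ s c : integralClosure (Algebra.adjoin E {t}) L, s ∉ P ∧
      (s : L) • D E L (x : L) = (c : L) • D E L t := by
  let φ := algebraMap (Algebra.adjoin E {t}) (integralClosure (Algebra.adjoin E {t}) L)
  have hcomap0 : P.comap φ ≠ ⊥ := fun h0 => hP0 (Ideal.eq_bot_of_comap_eq_bot h0)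
  haveI hprime : (P.comap φ).IsPrime := Ideal.comap_isPrime φ P
  obtain ⟨r, hr⟩ : ∃ r, P.comap φ = Ideal.span {r} :=
    ⟨_, (Ideal.span_singleton_generator (P.comap φ)).symm⟩
  have hr0 : r ≠ 0 := by
    rintro rfl
    exact hcomap0 (by rw [hr, Ideal.span_singleton_eq_bot])
  have hrprime : Prime r := by
    rw [← Ideal.span_singleton_prime hr0, ← hr]
    exact hprime
  have hrP : φ r ∈ P := by
    have : r ∈ P.comap φ := by rw [hr]; exact Ideal.mem_span_singleton_self r
    exact this
  obtain ⟨f, hf⟩ := Fermat.Agent.S30.E2.HorizGen.exists_eq_aeval t r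
  -- `E[X] ≃ E[t]`
  let ev : E[X] →+* Algebra.adjoin E {t} :=
    ((aeval t : E[X] →ₐ[E] L).codRestrict (Algebra.adjoin E {t})
      (Fermat.Agent.S30.E2.HorizGen.aeval_mem t)).toRingHom
  have hev : ∀ p : E[X], ((ev p : Algebra.adjoin E {t}) : L) = aeval t p := fun _ => rfl
  have hevbij : Function.Bijective ev := by
    constructor
    · intro p q hpq
      have h1 : aeval t p = aeval t q := by rw [← hev, ← hev, hpq]
      exact (transcendental_iff_injective.mp ht) h1
    · intro a
      obtain ⟨p, hp⟩ := Fermat.Agent.S30.E2.HorizGen.exists_eq_aeval t a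
      exact ⟨p, Subtype.ext hp.symm⟩
  let e : E[X] ≃+* Algebra.adjoin E {t} := RingEquiv.ofBijective ev hevbij
  have hef : e f = r := Subtype.ext hf.symm
  have hfirr : Irreducible f := by
    have h1 : Irreducible (e f) := by rw [hef]; exact hrprime.irreducible
    exact (MulEquiv.irreducible_iff (e : E[X] ≃* Algebra.adjoin E {t})).mp h1
  have hnS : ∀ c ∈ S, ¬ Associated f (X - C (algebraMap O E c)) := by
    intro c hc hass
    obtain ⟨v, hv⟩ := hass
    refine hS c hc (φ (r * ev (v : E[X]))) ?_ ?_
    · show ((r * ev (v : E[X]) : Algebra.adjoin E {t}) : L) = _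
      rw [Subalgebra.coe_mul, hev, hf, ← map_mul, hv, map_sub, aeval_X, aeval_C,
        ← IsScalarTower.algebraMap_apply]
    · rw [map_mul]
      exact P.mul_mem_right _ hrP
  have hU := hH f hfirr hnS
  rw [← hf] at hU
  exact exists_smul_D_eq t P (isUnramifiedAt_of_unramAt t r hrprime.irreducible hU P hrP) x

end Concrete

end Fermat.Agent.S36.A2
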