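import Mathlib
import Fermat.Agent.S36.A2.Kaehler
import Fermat.Agent.S36.A2.Unram

/-!
# S36, brick A2 / (HH): horizontal integrality of `dx / dt`, global form

Level-free, characteristic `0`: `E` a field, `L / E(t)` finite, `t` transcendental,
`Model.HorizUnram S t` (the E2-type input available for `t = j, t₂, t₃, u₄, u₉`).

* `D_ne_zero_of_sigma` : a `σ`-derivation with `D' t ≠ 0` shows `dt ≠ 0` in `Ω[L⁄E]`.
* `exists_pow_mul_isIntegral` (**HH2**) : for `x` integral over `E[t]` and `dx = d • dt`,
  `(∏_{c ∈ S} (t - c)) ^ n * d` is integral over `E[t]` for some `n`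
  ("`dx / dt` is regular away from the branch points `t = c`, `c ∈ S`").
* `hasse_package` (**HH1**-**HH3** together, for the two coordinates `u`, `V = w u` of level
  `q M'`): there is `d : L` with `dV = d • du` (so `θ (σ V) = σ d * θ (σ u)` for every
  `σ`-derivation, `sigma_deriv_eq`), `(∏ (u - c)) ^ n * d` integral over `E[u]`, and
  `w d * d = 1` for the swap.
-/

set_option autoImplicit false
set_option linter.style.haveILetI false
set_option linter.unusedSectionVars false

noncomputable section

namespace Fermat.Agent.S36.A2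

open IntermediateField Polynomial KaehlerDifferential
open scoped IntermediateField.algebraAdjoinAdjoin nonZeroDivisors
open Fermat.Agent.S30.Model

variable {E L : Type*} [Field E] [Field L] [Algebra E L]

/-- A `σ`-derivation which does not kill `t` shows `dt ≠ 0`. -/
theorem D_ne_zero_of_sigma {𝕃 : Type*} [CommRing 𝕃] (σ : L →+* 𝕃) (D' : L → 𝕃)
    (hadd : ∀ a b, D' (a + b) = D' a + D' b)
    (hmul : ∀ a b, D' (a * b) = σ a * D' b + σ b * D' a)
    (hE : ∀ c : E, D' (algebraMap E L c) = 0) {t : L} (ht : D' t ≠ 0) : D E L t ≠ 0 := by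
  intro h0
  have h1 : D E L t = (0 : L) • D E L t := by rw [zero_smul, h0]
  have h2 := sigma_deriv_eq σ D' hadd hmul hE h1
  rw [map_zero, zero_mul] at h2
  exact ht h2

variable [CharZero E] (t : L) [FiniteDimensional E⟮t⟯ L]

/-- **(HH2).**  `dx / dt` is regular away from the branch points: if `x` is integral over `E[t]`
and `dx = d • dt`, then `(∏_{c ∈ S} (t - c)) ^ n * d` is integral over `E[t]`. -/
theorem exists_pow_mul_isIntegral {O : Type*} [CommRing O] [Algebra O E] [Algebra O L]
    [IsScalarTower O E L] (S : Finset O) (hH : HorizUnram (E := E) S t) (ht : Transcendental E t)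
    (hDt : D E L t ≠ 0) {x d : L} (hx : IsIntegral (Algebra.adjoin E {t}) x)
    (hd : D E L x = d • D E L t) :
    ∃ n : ℕ, IsIntegral (Algebra.adjoin E {t}) ((∏ c ∈ S, (t - algebraMap O L c)) ^ n * d) := by
  classical
  haveI : IsFractionRing (integralClosure (Algebra.adjoin E {t}) L) L :=
    IsIntegralClosure.isFractionRing_of_finite_extension (Algebra.adjoin E {t}) E⟮t⟯ L _
  -- the denominator ideal of `d`
  let J : Ideal (integralClosure (Algebra.adjoin E {t}) L) :=
    { carrier := {b | IsIntegral (Algebra.adjoin E {t}) ((b : L) * d)}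
      add_mem' := by
        intro a b ha hb
        show IsIntegral _ (((a + b : integralClosure (Algebra.adjoin E {t}) L) : L) * d)
        rw [Subalgebra.coe_add, add_mul]
        exact ha.add hb
      zero_mem' := by
        show IsIntegral _ (((0 : integralClosure (Algebra.adjoin E {t}) L) : L) * d)
        rw [Subalgebra.coe_zero, zero_mul]
        exact isIntegral_zero
      smul_mem' := by
        intro c b hb
        show IsIntegral _ (((c • b : integralClosure (Algebra.adjoin E {t}) L) : L) * d)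
        rw [smul_eq_mul, Subalgebra.coe_mul, mul_assoc]
        exact c.2.mul hb }
  have hJmem : ∀ b : integralClosure (Algebra.adjoin E {t}) L,
      b ∈ J ↔ IsIntegral (Algebra.adjoin E {t}) ((b : L) * d) := fun _ => Iff.rfl
  -- `J ≠ ⊥`
  have hJ0 : J ≠ ⊥ := by
    obtain ⟨⟨a, s⟩, has⟩ := IsLocalization.surj (integralClosure (Algebra.adjoin E {t}) L)⁰ d
    have hs0 : (s : integralClosure (Algebra.adjoin E {t}) L) ≠ 0 := nonZeroDivisors.coe_ne_zero s
    intro hbot
    have hsJ : (s : integralClosure (Algebra.adjoin E {t}) L) ∈ J := by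
      rw [hJmem]
      have h1 : ((s : integralClosure (Algebra.adjoin E {t}) L) : L) * d = (a : L) := by
        rw [mul_comm]; exact has
      rw [h1]
      exact a.2
    rw [hbot, Ideal.mem_bot] at hsJ
    exact hs0 hsJ
  -- the element `g = ∏ (t - c)` of `B`
  have hgint : ∀ c : O, IsIntegral (Algebra.adjoin E {t}) (t - algebraMap O L c) := by
    intro c
    have h1 : t - algebraMap O L c ∈ Algebra.adjoin E {t} := by
      refine Subalgebra.sub_mem _ (Algebra.self_mem_adjoin_singleton E t) ?_
      rw [IsScalarTower.algebraMap_apply O E L]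
      exact Subalgebra.algebraMap_mem _ _
    exact isIntegral_algebraMap (x := (⟨_, h1⟩ : Algebra.adjoin E {t}))
  let gc : O → integralClosure (Algebra.adjoin E {t}) L := fun c => ⟨_, hgint c⟩
  let g : integralClosure (Algebra.adjoin E {t}) L := ∏ c ∈ S, gc c
  have hgcoe : (g : L) = ∏ c ∈ S, (t - algebraMap O L c) := by
    show ((∏ c ∈ S, gc c : integralClosure (Algebra.adjoin E {t}) L) : L) = _
    rw [← Subalgebra.coe_val, map_prod]
    rfl
  have hrad : g ∈ J.radical := by
    rw [Ideal.radical_eq_sInf, Ideal.mem_sInf]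
    rintro P ⟨hJP, hPprime⟩
    haveI := hPprime
    by_contra hgP
    have hP0 : P ≠ ⊥ := by
      rintro rfl
      exact hJ0 (le_bot_iff.mp hJP)
    have hS : ∀ c ∈ S, ∀ z : integralClosure (Algebra.adjoin E {t}) L,
        (z : L) = t - algebraMap O L c → z ∉ P := by
      intro c hc z hz hzP
      apply hgP
      have hzeq : z = gc c := Subtype.ext hz
      rw [hzeq] at hzP
      exact Ideal.IsPrime.prod_mem_iff.mpr ⟨c, hc, hzP⟩
    obtain ⟨s, c, hsP, hsc⟩ :=
      exists_smul_D_eq_of_horizUnram t S hH ht P hP0 hS ⟨x, hx⟩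
    have h1 : ((s : L) * d - (c : L)) • D E L t = 0 := by
      rw [sub_smul, mul_smul, ← hd]
      exact sub_eq_zero.mpr hsc
    have h2 : (s : L) * d = (c : L) := by
      rcases smul_eq_zero.mp h1 with h3 | h3
      · exact sub_eq_zero.mp h3
      · exact absurd h3 hDt
    have hsJ : s ∈ J := by
      rw [hJmem, h2]
      exact c.2
    exact hsP (hJP hsJ)
  obtain ⟨n, hn⟩ := hrad
  refine ⟨n, ?_⟩
  have h3 := (hJmem (g ^ n)).mp hn
  rwa [Subalgebra.coe_pow, hgcoe] at h3

/-- **(HH1)-(HH3) in one statement.**  `u` the chart coordinate (`HorizUnram S u`), `V` a second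
function integral over `E[u]` (e.g. `V = V_q u`), `(σ, D')` any `σ`-derivation killing `E` with
`D' u ≠ 0` (e.g. `σ` the `q`-expansion, `D' = θ ∘ σ`).  There is `d : L` ("`dV / du`") with

* `dV = d • du` in `Ω[L⁄E]`, hence `D'' V = σ' d * D'' u` for EVERY `σ'`-derivation `D''`
  (`sigma_deriv_eq`);
* `(∏_{c ∈ S} (u - c)) ^ n * d` integral over `E[u]`;
* `w d * d = 1` for every `E`-automorphism `w` swapping `u` and `V`. -/
theorem hasse_package {O : Type*} [CommRing O] [Algebra O E] [Algebra O L]
    [IsScalarTower O E L] (S : Finset O) (hH : HorizUnram (E := E) S t) (ht : Transcendental E t)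
    {V : L} (hV : IsIntegral (Algebra.adjoin E {t}) V)
    {𝕃 : Type*} [CommRing 𝕃] [IsDomain 𝕃] (σ : L →+* 𝕃) (D' : L → 𝕃)
    (hadd : ∀ a b, D' (a + b) = D' a + D' b)
    (hmul : ∀ a b, D' (a * b) = σ a * D' b + σ b * D' a)
    (hE : ∀ c : E, D' (algebraMap E L c) = 0) (hDt : D' t ≠ 0) :
    ∃ d : L, D E L V = d • D E L t ∧ D' V = σ d * D' t ∧
      (∃ n : ℕ, IsIntegral (Algebra.adjoin E {t})
        ((∏ c ∈ S, (t - algebraMap O L c)) ^ n * d)) ∧
      ∀ w : L ≃ₐ[E] L, w t = V → w V = t → w d * d = 1 := by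
  obtain ⟨d, hd⟩ := exists_D_eq_smul (E := E) t V
  refine ⟨d, hd, sigma_deriv_eq σ D' hadd hmul hE hd, ?_, ?_⟩
  · exact exists_pow_mul_isIntegral t S hH ht (D_ne_zero_of_sigma σ D' hadd hmul hE hDt) hV hd
  · intro w hwt hwV
    exact swap_mul_self σ D' hadd hmul hE w hwV hwt hDt hd

end Fermat.Agent.S36.A2
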