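import Mathlib
import Fermat.Agent.S34.TwoPrimesGauss
import Fermat.Agent.S34.Regular

/-!
# S36, brick A2: the vertical clearing step (SAT)

Setting of `S34/TwoPrimesGauss.lean` section `Package`, verbatim (`O` a DVR, `ϖ`, `α : L' → L`,
`σ` the `q`-expansion embedding, `w` the Atkin–Lehner involution, `C = Chart O (α u')`), plus an
`E`-algebra structure on `L` compatible with the `O`-structure.

* `isIntegral_of_mem_V` : an element `x : L` which is integral over `E[u]` (horizontal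
  integrality) and whose expansions `σ x`, `σ (w x)` at the two Gauss places lie in the Gauss
  ring `V` (vertical integrality at `p_∞` and at `p_0`) is integral over `O[u]`, i.e. lies in the
  chart ring.  (Induction on the power of `ϖ` needed, each step by `TwoPrimesGauss.sat` =
  `p_∞ ∩ p_0 = (ϖ)`.)
-/

set_option autoImplicit false
set_option linter.unusedSectionVars false
set_option linter.style.haveILetI false

noncomputable section

namespace Fermat.Agent.S36.A2

open ModularCurve Polynomial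
open Fermat.Agent.S30 Fermat.Agent.S34 Fermat.Agent.S34.TwoPrimesGauss

section Sat

variable {O E : Type*} [CommRing O] [IsDomain O] [IsDiscreteValuationRing O] [Field E]
  [Algebra O E] [FaithfulSMul O E]
  {L' L : Type*} [Field L'] [Field L] [Algebra O L'] [Algebra O L]
  [Algebra E L] [IsScalarTower O E L]
  (ϖ : O) (hϖ : Irreducible ϖ)
  (α : L' →+* L) (hαO : ∀ r : O, α (algebraMap O L' r) = algebraMap O L r)
  (σ : L →+* LaurentSeries E)
  (hσO : ∀ r : O, σ (algebraMap O L r) = HahnSeries.C (algebraMap O E r))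
  (hσfrac : ∀ x : L, σ x ∈ GaussDVR.fracField O E)
  (u' : L') (U : LaurentSeries O) (hσu : σ (α u') = GaussDVR.iota O E U)
  (w : L ≃+* L) (hwO : ∀ r : O, w (algebraMap O L r) = algebraMap O L r)
  (ℓ : ℕ) [NeZero ℓ]
  (hwα : ∀ x : L', σ (w (α x)) = qExpand E ℓ (σ (α x)))
  (hww : ∀ z : L, w (w z) = z)
  (hprime : Prime (piC u' ϖ))
  (hcop : IsCoprime (GaussDVR.rho O U).order (ℓ : ℤ)) (hord : (GaussDVR.rho O U).order ≠ 0)
  (hℓ : 2 ≤ ℓ)
  (hfrob : qExpand (IsLocalRing.ResidueField O) ℓ (GaussDVR.rho O U) = GaussDVR.rho O U ^ ℓ)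
  (hwu : IsIntegral (Algebra.adjoin O {α u'}) (w (α u')))
  (hrank : ∀ v : Option (Fin 1 ⊕ Fin ℓ) → Chart O (α u'),
    ∃ c : Option (Fin 1 ⊕ Fin ℓ) → Chart O u', c ≠ 0 ∧ ∑ i, incl α hαO u' (c i) * v i = 0)

include hϖ hαO hσO hσfrac hσu hwO hwα hww hprime hcop hord hℓ hfrob hwu hrank in
/-- **Vertical clearing.**  Integral over `E[u]` + Gauss-integral at both components
⟹ integral over `O[u]`. -/
theorem isIntegral_of_mem_V
    (hπE : ∀ x : E, ∃ (k : ℕ) (a : O), algebraMap O E ϖ ^ k * x = algebraMap O E a)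
    (x : L) (hxE : IsIntegral (Algebra.adjoin E ({α u'} : Set L)) x)
    (hx : σ x ∈ GaussDVR.V O E) (hWx : σ (w x) ∈ GaussDVR.V O E) :
    IsIntegral (Algebra.adjoin O {α u'}) x := by
  obtain ⟨n, hn⟩ := Regular.exists_pow_mul_isIntegral ϖ hπE (α u') x hxE
  have hϖL : algebraMap O L ϖ ≠ 0 := by
    intro h0
    have h1 := hσO ϖ
    rw [h0, map_zero] at h1
    exact GaussDVR.coe_unif_ne_zero E ϖ hϖ (by rw [GaussDVR.coe_unif]; exact h1.symm)
  induction n with
  | zero => simpa using hn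
  | succ n ih =>
    apply ih
    -- `y = ϖ^(n+1) x = ϖ * z`, `z = ϖ^n x`
    set z : L := algebraMap O L ϖ ^ n * x with hz
    have hy : algebraMap O L ϖ ^ (n + 1) * x = algebraMap O L ϖ * z := by
      rw [hz, pow_succ]; ring
    rw [hy] at hn
    have hσz : σ z ∈ GaussDVR.V O E := by
      rw [hz, map_mul, map_pow, hσO, ← GaussDVR.coe_unif]
      exact Subring.mul_mem _ (Subring.pow_mem _ (GaussDVR.unif E ϖ).2 n) hx
    have hσwz : σ (w z) ∈ GaussDVR.V O E := by
      rw [hz, map_mul, map_pow, hwO, map_mul, map_pow, hσO, ← GaussDVR.coe_unif]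
      exact Subring.mul_mem _ (Subring.pow_mem _ (GaussDVR.unif E ϖ).2 n) hWx
    have hσy : σ (algebraMap O L ϖ * z) ∈ GaussDVR.V O E := by
      rw [map_mul, hσO, ← GaussDVR.coe_unif]
      exact Subring.mul_mem _ (GaussDVR.unif E ϖ).2 hσz
    have hσwy : σ (w (algebraMap O L ϖ * z)) ∈ GaussDVR.V O E := by
      rw [map_mul, hwO, map_mul, hσO, ← GaussDVR.coe_unif]
      exact Subring.mul_mem _ (GaussDVR.unif E ϖ).2 hσwz
    have h1 : GaussDVR.red O E ⟨σ (algebraMap O L ϖ * z), hσy⟩ = 0 := by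
      have he : (⟨σ (algebraMap O L ϖ * z), hσy⟩ : GaussDVR.V O E) =
          GaussDVR.unif E ϖ * ⟨σ z, hσz⟩ := by
        apply Subtype.ext
        show σ (algebraMap O L ϖ * z) = ((GaussDVR.unif E ϖ : GaussDVR.V O E) : LaurentSeries E) * σ z
        rw [map_mul, hσO, GaussDVR.coe_unif]
      rw [he, map_mul, GaussDVR.red_unif E ϖ hϖ, zero_mul]
    have h2 : GaussDVR.red O E ⟨σ (w (algebraMap O L ϖ * z)), hσwy⟩ = 0 := by
      have he : (⟨σ (w (algebraMap O L ϖ * z)), hσwy⟩ : GaussDVR.V O E) =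
          GaussDVR.unif E ϖ * ⟨σ (w z), hσwz⟩ := by
        apply Subtype.ext
        show σ (w (algebraMap O L ϖ * z)) =
          ((GaussDVR.unif E ϖ : GaussDVR.V O E) : LaurentSeries E) * σ (w z)
        rw [map_mul, hwO, map_mul, hσO, GaussDVR.coe_unif]
      rw [he, map_mul, GaussDVR.red_unif E ϖ hϖ, zero_mul]
    obtain ⟨c, hc, hyc⟩ := sat ϖ hϖ α hαO σ hσO hσfrac u' U hσu w hwO ℓ hwα hww hprime hcop hord
      hℓ hfrob hwu hrank (algebraMap O L ϖ * z) hσy hσwy hn h1 h2
    have hzc : z = c := mul_left_cancel₀ hϖL hyc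
    rw [hzc]
    exact hc

end Sat

end Fermat.Agent.S36.A2
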