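import Mathlib
import Fermat.Agent.S34.Modular.ChartZero
import Fermat.Agent.S36.QFormalB
import Fermat.Agent.S36.A2.Global
import Fermat.Agent.S36.A2.Sat

/-!
# S36, brick A2 / (P-h): the pole input of the thickness-one brick, end to end

Setting of `S34/Modular/ChartZero.lean` section `Main`, verbatim (`O` a DVR with uniformiser `ϖ`,
`E = Frac O` of characteristic `0`, `α : L' → L`, `σ` the `q`-expansion embedding, `u'` the
coordinate with integral expansion `U`, `w` the Atkin–Lehner involution with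
`σ (w (α x)) = (σ (α x))(q^ℓ)`, `C = Chart O (α u')`, `W = wChart`), with `ℓ` the residue
characteristic, plus the horizontal input `Model.HorizUnram S (α u')`
(`L / E(u)` unramified over the affine `u`-line away from `u = c`, `c ∈ S`).

Write `u = α u'`, `V = w u`, `g = ∏_{c ∈ S} (u - c)`.  `Global.hasse_package` gives `d = dV / du`
with `g ^ n * d` integral over `E[u]` and `w d * d = 1`.  The **Hasse element** is

  `a = ℓ * V * (w g) ^ n * w d   ( = ℓ V (w g)^n (du / dV) )`.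

* `exists_pole_pair` : `a` lies in the chart ring `C` (horizontal integrality by `hasse_package`,
  vertical integrality at both Gauss primes by `Sat.isIntegral_of_mem_V`), `redZero a = 0`,
  `θ(ρ U) ^ (ℓ - 1) * redInf a = redZero (u * g ^ n) = redInf (W (u * g ^ n))`, and
  `a * W a = ℓ ^ 2 * (u * W u * (g * W g) ^ n)`.
* `wChart_notMem` : `W (u * g ^ n) ∉ y` for a prime `y ⊇ ker redInf` not containing `u` nor any
  `u - c`, `c ∈ S` (a non-cuspidal point), when the residues of `S` are Frobenius-stable.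
* `exists_pole_input` : the pair `(a, b)` in the literal shape consumed by
  `ThickChart.thick_at_crossing`.
-/

set_option autoImplicit false
set_option linter.unusedSectionVars false
set_option linter.style.haveILetI false

noncomputable section

namespace Fermat.Agent.S36.A2

open ModularCurve Polynomial IntermediateField
open Fermat.Agent.S30 Fermat.Agent.S34 Fermat.Agent.S34.TwoPrimesGauss
open Fermat.Agent.S34.Modular.ChartZero Fermat.Agent.S36.QFormalB Fermat.Agent.S30.Model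

/-! ### Formal lemmas -/

section Formal

variable {R : Type*} [CommRing R]

theorem expand_eq_qExpand_aux (ℓ : ℕ) [NeZero ℓ] (hℓ : 0 < ℓ) (x : LaurentSeries R) :
    Congr.expand ℓ hℓ x = qExpand R ℓ x := by
  ext n
  by_cases hn : (ℓ : ℤ) ∣ n
  · obtain ⟨m, rfl⟩ := hn
    rw [Congr.coeff_expand_mul, qExpand_coeff_mul]
  · rw [Congr.coeff_expand_of_not_dvd ℓ hℓ _ hn, qExpand_coeff_of_not_dvd _ _ hn]

/-- `θ (f(q^ℓ)) = ℓ (θ f)(q^ℓ)`. -/
theorem theta_qExpand (ℓ : ℕ) [NeZero ℓ] (f : LaurentSeries R) :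
    theta (qExpand R ℓ f) = (ℓ : LaurentSeries R) * qExpand R ℓ (theta f) := by
  have hℓ : 0 < ℓ := Nat.pos_of_ne_zero (NeZero.ne ℓ)
  rw [← expand_eq_qExpand_aux ℓ hℓ, ← expand_eq_qExpand_aux ℓ hℓ, theta_expand, nsmul_eq_mul]

/-- A series with `f(q^ℓ) = f^ℓ` in characteristic `ℓ` has Frobenius-fixed coefficients. -/
theorem coeff_pow_of_qExpand_eq_pow (ℓ : ℕ) [NeZero ℓ] [Fact ℓ.Prime] [CharP R ℓ]
    (f : LaurentSeries R) (hf : qExpand R ℓ f = f ^ ℓ) (n : ℤ) : f.coeff n ^ ℓ = f.coeff n := by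
  have hℓ : 0 < ℓ := Nat.pos_of_ne_zero (NeZero.ne ℓ)
  have h1 : Congr.expand ℓ hℓ (coeffMap (frobenius R ℓ) f) = Congr.expand ℓ hℓ f := by
    rw [Congr.expand_coeffMap_frobenius, expand_eq_qExpand_aux, hf]
  have h2 := Congr.expand_injective ℓ hℓ h1
  have h3 := congrArg (fun x : LaurentSeries R => x.coeff n) h2
  simp only [coeffMap_coeff, frobenius_def] at h3
  exact h3

/-- Frobenius-fixed coefficients: `f(q^ℓ) = f^ℓ`. -/
theorem qExpand_eq_pow_of_coeff (ℓ : ℕ) [NeZero ℓ] [Fact ℓ.Prime] [CharP R ℓ]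
    (f : LaurentSeries R) (hf : ∀ n, f.coeff n ^ ℓ = f.coeff n) : qExpand R ℓ f = f ^ ℓ := by
  have hℓ : 0 < ℓ := Nat.pos_of_ne_zero (NeZero.ne ℓ)
  rw [← expand_eq_qExpand_aux ℓ hℓ, expand_coeffMap_eq_pow ℓ hℓ f hf]

/-- `θ` preserves Frobenius-fixedness of the coefficients. -/
theorem qExpand_theta_eq_pow (ℓ : ℕ) [NeZero ℓ] [Fact ℓ.Prime] [CharP R ℓ]
    (f : LaurentSeries R) (hf : qExpand R ℓ f = f ^ ℓ) :
    qExpand R ℓ (theta f) = theta f ^ ℓ := by
  refine qExpand_eq_pow_of_coeff ℓ (theta f) fun n => ?_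
  rw [coeff_theta, mul_pow, coeff_pow_of_qExpand_eq_pow ℓ f hf n]
  congr 1
  rw [← frobenius_def, map_intCast]

end Formal

/-! ### Fraction-field lemmas -/

section Frac

variable {O E L : Type*} [CommRing O] [Field E] [Field L] [Algebra O E] [Algebra E L]
  [Algebra O L] [IsScalarTower O E L]

/-- A ring hom which is `C ∘ algebraMap` on `O` is `C` on `E = Frac O`. -/
theorem sigma_algebraMap_of_fraction [IsDomain O] [IsFractionRing O E]
    (σ : L →+* LaurentSeries E)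
    (hσO : ∀ r : O, σ (algebraMap O L r) = HahnSeries.C (algebraMap O E r)) (c : E) :
    σ (algebraMap E L c) = HahnSeries.C c := by
  obtain ⟨a, b, -, rfl⟩ := IsFractionRing.div_surjective (A := O) c
  rw [map_div₀ (algebraMap E L), ← IsScalarTower.algebraMap_apply O E L,
    ← IsScalarTower.algebraMap_apply O E L, map_div₀ σ, hσO, hσO,
    map_div₀ (HahnSeries.C : E →+* LaurentSeries E)]

/-- An automorphism fixing `O` fixes `E = Frac O`. -/
theorem map_algebraMap_of_fraction [IsDomain O] [IsFractionRing O E] (w : L ≃+* L)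
    (hwO : ∀ r : O, w (algebraMap O L r) = algebraMap O L r) (c : E) :
    w (algebraMap E L c) = algebraMap E L c := by
  obtain ⟨a, b, -, rfl⟩ := IsFractionRing.div_surjective (A := O) c
  rw [map_div₀ (algebraMap E L), ← IsScalarTower.algebraMap_apply O E L,
    ← IsScalarTower.algebraMap_apply O E L, map_div₀ w, hwO, hwO]

/-- Integral over `O[t]` implies integral over `E[t]`. -/
theorem isIntegral_adjoin_of_isIntegral_adjoin (t : L) {x : L}
    (hx : IsIntegral (Algebra.adjoin O ({t} : Set L)) x) :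
    IsIntegral (Algebra.adjoin E ({t} : Set L)) x := by
  let f : Algebra.adjoin O ({t} : Set L) →+* Algebra.adjoin E ({t} : Set L) :=
    { toFun := fun z => ⟨(z : L), Regular.mem_adjoin_of_mem_adjoin t z.2⟩
      map_one' := rfl
      map_mul' := fun _ _ => rfl
      map_zero' := rfl
      map_add' := fun _ _ => rfl }
  obtain ⟨P, hP, hPx⟩ := hx
  refine ⟨P.map f, hP.map _, ?_⟩
  rw [eval₂_map]
  exact hPx

end Frac

/-! ### The Hasse element in the chart ring -/

section Pole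

variable {O E : Type*} [CommRing O] [IsDomain O] [IsDiscreteValuationRing O] [Field E]
  [Algebra O E] [FaithfulSMul O E]
  {L' L : Type*} [Field L'] [Field L] [Algebra O L'] [Algebra O L]
  [Algebra E L] [IsScalarTower O E L]
  (ϖ : O) (hϖ : Irreducible ϖ)
  (α : L' →+* L) (hαO : ∀ r : O, α (algebraMap O L' r) = algebraMap O L r)
  (σ : L →+* LaurentSeries E)
  (hσO : ∀ r : O, σ (algebraMap O L r) = HahnSeries.C (algebraMap O E r))
  (hσfrac : ∀ x : L, σ x ∈ GaussDVR.fracField O E)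
  (u' : L') (U : LaurentSeries O) (hσu : σ (α u') = GaussDVR.iota O E U)
  (w : L ≃+* L) (hwO : ∀ r : O, w (algebraMap O L r) = algebraMap O L r)
  (ℓ : ℕ) [NeZero ℓ]
  (hwα : ∀ x : L', σ (w (α x)) = qExpand E ℓ (σ (α x)))
  (hww : ∀ z : L, w (w z) = z)
  (hprime : Prime (piC u' ϖ))
  (hcop : IsCoprime (GaussDVR.rho O U).order (ℓ : ℤ)) (hord : (GaussDVR.rho O U).order ≠ 0)
  (hℓ : 2 ≤ ℓ)
  (hfrob : qExpand (IsLocalRing.ResidueField O) ℓ (GaussDVR.rho O U) = GaussDVR.rho O U ^ ℓ)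
  (hwu : IsIntegral (Algebra.adjoin O {α u'}) (w (α u')))
  (hrank : ∀ v : Option (Fin 1 ⊕ Fin ℓ) → Chart O (α u'),
    ∃ c : Option (Fin 1 ⊕ Fin ℓ) → Chart O u', c ≠ 0 ∧ ∑ i, incl α hαO u' (c i) * v i = 0)

local notation "rI" => redInf ϖ hϖ α σ hσO hσfrac u' U hσu
local notation "rZ" => redZero ϖ hϖ α σ hσO hσfrac u' U hσu w hwO ℓ hwα
local notation "rM" => redM ϖ hϖ α hαO σ hσO hσfrac u' U hσu
local notation "ι" => incl α hαO u'
local notation "ρU" => GaussDVR.rho O U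
local notation "W" => wChart α u' w hwO hww hwu

/-- The Gauss-side computation: from `σ d * ι(θ U) = ι(ℓ * (θ U)(q^ℓ))` and `σ (w d) * σ d = 1`,
both `σ d` and `ℓ * σ (w d)` lie in the Gauss ring and `θ(ρ U)^(ℓ-1) * red (ℓ * σ (w d)) = 1`. -/
theorem gauss_side [Fact ℓ.Prime] [CharP (IsLocalRing.ResidueField O) ℓ]
    (hfrob : qExpand (IsLocalRing.ResidueField O) ℓ (GaussDVR.rho O U) = GaussDVR.rho O U ^ ℓ)
    (hθU : theta ρU ≠ 0) (sd swd : LaurentSeries E) (h1 : swd * sd = 1)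
    (h2 : sd * GaussDVR.iota O E (theta U) =
      GaussDVR.iota O E ((ℓ : LaurentSeries O) * qExpand O ℓ (theta U))) :
    sd ∈ GaussDVR.V O E ∧ ∃ h : (ℓ : LaurentSeries E) * swd ∈ GaussDVR.V O E,
      theta ρU ^ (ℓ - 1) * GaussDVR.red O E ⟨(ℓ : LaurentSeries E) * swd, h⟩ = 1 := by
  have hρA : GaussDVR.rho O (theta U) = theta ρU := coeffMap_theta _ U
  have hρB : GaussDVR.rho O (qExpand O ℓ (theta U)) = theta ρU ^ ℓ := by
    rw [coeffMap_qExpand, hρA, qExpand_theta_eq_pow ℓ ρU hfrob]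
  have hρB0 : GaussDVR.rho O (qExpand O ℓ (theta U)) ≠ 0 := by
    rw [hρB]; exact pow_ne_zero _ hθU
  have hy1 : (ℓ : LaurentSeries E) * swd * GaussDVR.iota O E (qExpand O ℓ (theta U)) =
      GaussDVR.iota O E (theta U) := by
    have h3 : sd * GaussDVR.iota O E (theta U) =
        (ℓ : LaurentSeries E) * GaussDVR.iota O E (qExpand O ℓ (theta U)) := by
      rw [h2, map_mul, map_natCast]
    calc (ℓ : LaurentSeries E) * swd * GaussDVR.iota O E (qExpand O ℓ (theta U))
        = swd * ((ℓ : LaurentSeries E) * GaussDVR.iota O E (qExpand O ℓ (theta U))) := by ring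
      _ = swd * sd * GaussDVR.iota O E (theta U) := by rw [← h3]; ring
      _ = _ := by rw [h1, one_mul]
  have hmem : (ℓ : LaurentSeries E) * swd ∈ GaussDVR.V O E :=
    (GaussDVR.mem_V O E).mpr ⟨theta U, qExpand O ℓ (theta U), hρB0, hy1⟩
  refine ⟨(GaussDVR.mem_V O E).mpr ⟨(ℓ : LaurentSeries O) * qExpand O ℓ (theta U), theta U,
    by rw [hρA]; exact hθU, h2⟩, hmem, ?_⟩
  have h4 := GaussDVR.red_mul_rho O E ⟨(ℓ : LaurentSeries E) * swd, hmem⟩ (theta U)
    (qExpand O ℓ (theta U)) hy1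
  rw [hρB, hρA] at h4
  obtain ⟨m, hm⟩ : ∃ m, ℓ = m + 1 := ⟨ℓ - 1, by have := (Fact.out : ℓ.Prime).pos; omega⟩
  have h5 : (theta ρU ^ (ℓ - 1) * GaussDVR.red O E ⟨(ℓ : LaurentSeries E) * swd, hmem⟩ - 1) *
      theta ρU = 0 := by
    have h6 : theta ρU ^ ℓ = theta ρU ^ (ℓ - 1) * theta ρU := by
      conv_lhs => rw [hm]
      rw [hm, Nat.add_sub_cancel, pow_succ]
    rw [h6] at h4
    linear_combination h4
  rcases mul_eq_zero.mp h5 with h7 | h7
  · exact sub_eq_zero.mp h7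
  · exact absurd h7 hθU

include hϖ hαO hσO hσfrac hσu hwO hwα hww hprime hcop hord hℓ hfrob hwu hrank in
/-- **(P-h), the Hasse element.**  There are `n` and `a` in the chart ring with `redZero a = 0`,
`θ(ρ U)^(ℓ-1) * redInf a = redZero (u * g^n)` and `a * W a = ℓ^2 * (u * W u * (g * W g)^n)`,
where `g = ∏_{c ∈ S} (u - c)`. -/
theorem exists_pole_pair [CharZero E] [IsFractionRing O E] [FiniteDimensional E⟮α u'⟯ L]
    [Fact ℓ.Prime] [CharP (IsLocalRing.ResidueField O) ℓ]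
    (hu : Transcendental E (α u')) (S : Finset O) (hH : HorizUnram (E := E) S (α u'))
    (hθU : theta ρU ≠ 0) :
    ∃ (n : ℕ) (a : Chart O (α u')), rZ a = 0 ∧
      theta ρU ^ (ℓ - 1) * rI a =
        rZ (ι (polyChart u' X) * ι (polyChart u' (∏ c ∈ S, (X - C c))) ^ n) ∧
      a * W a = (ℓ : Chart O (α u')) ^ 2 *
        (ι (polyChart u' X) * W (ι (polyChart u' X)) *
          (ι (polyChart u' (∏ c ∈ S, (X - C c))) *
            W (ι (polyChart u' (∏ c ∈ S, (X - C c))))) ^ n) := by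
  classical
  have hσE : ∀ c : E, σ (algebraMap E L c) = HahnSeries.C c :=
    sigma_algebraMap_of_fraction σ hσO
  have hwE : ∀ c : E, w (algebraMap E L c) = algebraMap E L c :=
    map_algebraMap_of_fraction w hwO
  let wE : L ≃ₐ[E] L := AlgEquiv.ofRingEquiv (f := w) hwE
  -- the `σ`-derivation `θ ∘ σ`
  have hadd : ∀ a b : L, theta (σ (a + b)) = theta (σ a) + theta (σ b) := fun a b => by
    rw [map_add, theta_add]
  have hmul : ∀ a b : L, theta (σ (a * b)) = σ a * theta (σ b) + σ b * theta (σ a) :=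
    fun a b => by rw [map_mul, theta_mul]; ring
  have hE0 : ∀ c : E, theta (σ (algebraMap E L c)) = 0 := fun c => by rw [hσE, theta_C]
  have hθu : theta (σ (α u')) = GaussDVR.iota O E (theta U) := by rw [hσu, coeffMap_theta]
  have hA0 : theta U ≠ 0 := by
    intro h0
    apply hθU
    rw [← coeffMap_theta, h0, map_zero]
  have hDt : theta (σ (α u')) ≠ 0 := by
    rw [hθu]; exact GaussDVR.iota_ne_zero O E hA0
  have hVint : IsIntegral (Algebra.adjoin E ({α u'} : Set L)) (w (α u')) :=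
    isIntegral_adjoin_of_isIntegral_adjoin (α u') hwu
  obtain ⟨d, -, hdV, ⟨n, hn⟩, hsw⟩ := hasse_package (E := E) (α u') S hH hu hVint σ
    (fun x => theta (σ x)) hadd hmul hE0 hDt
  have hdV' : theta (σ (w (α u'))) = σ d * theta (σ (α u')) := hdV
  have hwd : w d * d = 1 := hsw wE rfl (hww (α u'))
  -- the two expansions
  have hσV : σ (w (α u')) = GaussDVR.iota O E (qExpand O ℓ U) :=
    sigmaW_u α σ u' U hσu w ℓ hwα
  have hθV : theta (σ (w (α u'))) =
      GaussDVR.iota O E ((ℓ : LaurentSeries O) * qExpand O ℓ (theta U)) := by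
    rw [hσV, ← coeffMap_theta, theta_qExpand]
  obtain ⟨hσd, hy1V, hy1⟩ := gauss_side U ℓ hfrob hθU (σ d) (σ (w d))
    (by rw [← map_mul, hwd, map_one]) (by rw [← hθu, ← hdV', hθV])
  -- the function `g`
  set gC : Chart O (α u') := ι (polyChart u' (∏ c ∈ S, (X - C c))) with hgC
  set uC : Chart O (α u') := ι (polyChart u' X) with huC
  have huCL : (uC : L) = α u' := by
    rw [huC, coe_incl, coe_polyChart, aeval_X]
  have hgL : (gC : L) = ∏ c ∈ S, (α u' - algebraMap O L c) := by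
    rw [hgC, coe_incl, coe_polyChart, map_prod, map_prod]
    refine Finset.prod_congr rfl fun c _ => ?_
    rw [map_sub, aeval_X, aeval_C, map_sub, hαO]
  rw [← hgL] at hn
  -- the Hasse element
  set x₂ : L := (ℓ : L) * w (α u') * w (gC : L) ^ n * w d with hx₂
  have hx₂E : IsIntegral (Algebra.adjoin E ({α u'} : Set L)) x₂ := by
    have h1 : x₂ = (ℓ : L) * w (α u') * w ((gC : L) ^ n * d) := by
      rw [hx₂, map_mul, map_pow]; ring
    rw [h1]
    refine IsIntegral.mul (IsIntegral.mul ?_ hVint) (isIntegral_swap w hwE (α u') hVint hn)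
    rw [← map_natCast (algebraMap (Algebra.adjoin E ({α u'} : Set L)) L) ℓ]
    exact isIntegral_algebraMap
  -- `σ x₂`
  have hσx₂ : σ x₂ = (ℓ : LaurentSeries E) * σ (w d) * GaussDVR.iota O E (qExpand O ℓ U) *
      σ (w (gC : L)) ^ n := by
    rw [hx₂, map_mul, map_mul, map_mul, map_natCast, map_pow, hσV]; ring
  have hWg : σ (w (gC : L)) ∈ GaussDVR.V O E :=
    sigma_mem_V σ hσO ϖ hϖ hσfrac (α u') U hσu (W gC).2
  have hx₂V : σ x₂ ∈ GaussDVR.V O E := by
    rw [hσx₂]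
    exact Subring.mul_mem _ (Subring.mul_mem _ hy1V (GaussDVR.mem_of_int O E _))
      (Subring.pow_mem _ hWg n)
  -- `σ (w x₂)`
  have hwx₂ : w x₂ = (ℓ : L) * (α u' * (gC : L) ^ n * d) := by
    rw [hx₂, map_mul, map_mul, map_mul, map_natCast, map_pow, hww, hww, hww]; ring
  have hg : σ (gC : L) ∈ GaussDVR.V O E :=
    sigma_mem_V σ hσO ϖ hϖ hσfrac (α u') U hσu gC.2
  have hrest : σ (α u' * (gC : L) ^ n * d) ∈ GaussDVR.V O E := by
    rw [map_mul, map_mul, map_pow, hσu]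
    exact Subring.mul_mem _ (Subring.mul_mem _ (GaussDVR.mem_of_int O E _)
      (Subring.pow_mem _ hg n)) hσd
  have hσwx₂ : σ (w x₂) = (ℓ : LaurentSeries E) * σ (α u' * (gC : L) ^ n * d) := by
    rw [hwx₂, map_mul, map_natCast]
  have hWx₂V : σ (w x₂) ∈ GaussDVR.V O E := by
    rw [hσwx₂]
    exact Subring.mul_mem _ (natCast_mem _ ℓ) hrest
  have hx₂int : IsIntegral (Algebra.adjoin O {α u'}) x₂ :=
    isIntegral_of_mem_V ϖ hϖ α hαO σ hσO hσfrac u' U hσu w hwO ℓ hwα hww hprime hcop hord hℓ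
      hfrob hwu hrank (Regular.exists_pow_mul_eq_algebraMap ϖ hϖ) x₂ hx₂E hx₂V hWx₂V
  refine ⟨n, ⟨x₂, hx₂int⟩, ?_, ?_, ?_⟩
  · -- `rZ a = 0`
    show GaussDVR.red O E ⟨σ (w x₂), hWx₂V⟩ = 0
    have he : (⟨σ (w x₂), hWx₂V⟩ : GaussDVR.V O E) =
        (ℓ : GaussDVR.V O E) * ⟨σ (α u' * (gC : L) ^ n * d), hrest⟩ := by
      apply Subtype.ext
      rw [Subring.coe_mul, Subring.coe_natCast]
      exact hσwx₂
    rw [he, map_mul, map_natCast,
      ← map_natCast (HahnSeries.C : IsLocalRing.ResidueField O →+*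
        LaurentSeries (IsLocalRing.ResidueField O)) ℓ, CharP.cast_eq_zero, map_zero, zero_mul]
  · -- `θ(ρU)^(ℓ-1) * rI a = rZ (uC * gC^n)`
    have hrI : rI (⟨x₂, hx₂int⟩ : Chart O (α u')) =
        GaussDVR.red O E ⟨(ℓ : LaurentSeries E) * σ (w d), hy1V⟩ * ρU ^ ℓ * rZ gC ^ n := by
      show GaussDVR.red O E ⟨σ x₂, hx₂V⟩ = _
      have he : (⟨σ x₂, hx₂V⟩ : GaussDVR.V O E) =
          ⟨(ℓ : LaurentSeries E) * σ (w d), hy1V⟩ * GaussDVR.ofInt O E (qExpand O ℓ U) *
            (⟨σ (w (gC : L)), hWg⟩ : GaussDVR.V O E) ^ n := by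
        apply Subtype.ext
        rw [Subring.coe_mul, Subring.coe_mul, Subring.coe_pow, GaussDVR.coe_ofInt]
        exact hσx₂
      rw [he, map_mul, map_mul, map_pow, GaussDVR.red_ofInt, coeffMap_qExpand, hfrob]
      rfl
    have huZ : rZ uC = ρU ^ ℓ := by
      rw [huC, redZero_incl, redM_polyChart, Polynomial.map_X, eval₂_X, hfrob]
    rw [hrI, map_mul, map_pow, huZ]
    linear_combination (ρU ^ ℓ * rZ gC ^ n) * hy1
  · -- `a * W a = ℓ^2 * ...`
    apply Subtype.ext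
    show x₂ * w x₂ = ((ℓ : Chart O (α u')) : L) ^ 2 *
      ((uC : L) * w (uC : L) * ((gC : L) * w (gC : L)) ^ n)
    have hℓL : ((ℓ : Chart O (α u')) : L) = (ℓ : L) :=
      map_natCast (algebraMap (Chart O (α u')) L) ℓ
    rw [hwx₂, huCL, hℓL, hx₂]
    linear_combination ((ℓ : L) ^ 2 * α u' * w (α u') * ((gC : L) * w (gC : L)) ^ n) * hwd

include hwα hfrob in
/-- `W u ≡ u ^ ℓ` modulo `p_∞`. -/
theorem wChart_X_sub_pow_mem :
    W (ι (polyChart u' X)) - ι (polyChart u' X) ^ ℓ ∈ RingHom.ker rI := by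
  have h1 : rM (polyChart u' X) = ρU := by rw [redM_polyChart, Polynomial.map_X, eval₂_X]
  rw [RingHom.mem_ker, map_sub, redInf_wChart ϖ hϖ α σ hσO hσfrac u' U hσu w hwO ℓ hwα hww hwu,
    redZero_incl, map_pow, redInf_incl, h1, hfrob, sub_self]

include hwα hfrob in
/-- `W (u - c) ≡ (u - c') ^ ℓ` modulo `p_∞` when `c̄' ^ ℓ = c̄`. -/
theorem wChart_sub_pow_mem [Fact ℓ.Prime] [CharP (IsLocalRing.ResidueField O) ℓ] (c c' : O)
    (hc : IsLocalRing.residue O c' ^ ℓ = IsLocalRing.residue O c) :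
    W (ι (polyChart u' (X - C c))) - ι (polyChart u' (X - C c')) ^ ℓ ∈ RingHom.ker rI := by
  haveI : CharP (LaurentSeries (IsLocalRing.ResidueField O)) ℓ :=
    charP_of_injective_ringHom HahnSeries.C_injective ℓ
  have h1 : ∀ c : O, rM (polyChart u' (X - C c)) =
      ρU - HahnSeries.C (IsLocalRing.residue O c) := by
    intro c
    rw [redM_polyChart, Polynomial.map_sub, Polynomial.map_X, Polynomial.map_C, eval₂_sub,
      eval₂_X, eval₂_C]
  have h2 : (HahnSeries.C (IsLocalRing.residue O c') :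
      LaurentSeries (IsLocalRing.ResidueField O)) ^ ℓ =
      HahnSeries.C (IsLocalRing.residue O c) := by
    rw [← hc, map_pow]
  rw [RingHom.mem_ker, map_sub, redInf_wChart ϖ hϖ α σ hσO hσfrac u' U hσu w hwO ℓ hwα hww hwu,
    redZero_incl, map_pow, redInf_incl, h1, h1, map_sub, hfrob, qExpand_C, sub_pow_char, h2,
    sub_self]

include hwα hfrob in
/-- **Non-vanishing at non-cuspidal points.**  For a prime `y ⊇ p_∞` not containing `u` nor any
`u - c`, `c ∈ S` (`S` Frobenius-stable in the residue field), `W (u * g ^ n) ∉ y`. -/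
theorem wChart_notMem [Fact ℓ.Prime] [CharP (IsLocalRing.ResidueField O) ℓ] (S : Finset O)
    (hSfrob : ∀ c ∈ S, ∃ c' ∈ S, IsLocalRing.residue O c' ^ ℓ = IsLocalRing.residue O c)
    (y : Ideal (Chart O (α u'))) [y.IsPrime] (hI : RingHom.ker rI ≤ y)
    (hu : ι (polyChart u' X) ∉ y) (hS : ∀ c ∈ S, ι (polyChart u' (X - C c)) ∉ y) (n : ℕ) :
    W (ι (polyChart u' X) * ι (polyChart u' (∏ c ∈ S, (X - C c))) ^ n) ∉ y := by
  classical
  have hWu : W (ι (polyChart u' X)) ∉ y := by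
    intro h
    apply hu
    have h1 := hI (wChart_X_sub_pow_mem ϖ hϖ α hαO σ hσO hσfrac u' U hσu w hwO ℓ hwα hww hfrob hwu)
    have h2 : ι (polyChart u' X) ^ ℓ ∈ y := by
      have := y.sub_mem h h1
      rwa [sub_sub_cancel] at this
    exact Ideal.IsPrime.mem_of_pow_mem inferInstance ℓ h2
  have hWg : W (ι (polyChart u' (∏ c ∈ S, (X - C c)))) ∉ y := by
    rw [map_prod, map_prod, map_prod]
    intro h
    obtain ⟨c, hcS, hc⟩ := (Ideal.IsPrime.prod_mem_iff).mp h
    obtain ⟨c', hc'S, hcc'⟩ := hSfrob c hcS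
    apply hS c' hc'S
    have h1 := hI (wChart_sub_pow_mem ϖ hϖ α hαO σ hσO hσfrac u' U hσu w hwO ℓ hwα hww hfrob hwu
      c c' hcc')
    have h2 : ι (polyChart u' (X - C c')) ^ ℓ ∈ y := by
      have := y.sub_mem hc h1
      rwa [sub_sub_cancel] at this
    exact Ideal.IsPrime.mem_of_pow_mem inferInstance ℓ h2
  rw [map_mul, map_pow]
  intro h
  rcases Ideal.IsPrime.mem_or_mem inferInstance h with h1 | h1
  · exact hWu h1
  · exact hWg (Ideal.IsPrime.mem_of_pow_mem inferInstance n h1)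

/-- Integers are Frobenius-fixed in the residue field. -/
theorem residue_intCast_pow [Fact ℓ.Prime] [CharP (IsLocalRing.ResidueField O) ℓ] (z : ℤ) :
    IsLocalRing.residue O (z : O) ^ ℓ = IsLocalRing.residue O (z : O) := by
  rw [map_intCast, ← frobenius_def, map_intCast]

/-- A set of integers is Frobenius-stable. -/
theorem frobStable_of_intCast [Fact ℓ.Prime] [CharP (IsLocalRing.ResidueField O) ℓ]
    (S : Finset O) (hS : ∀ c ∈ S, ∃ z : ℤ, c = (z : O)) :
    ∀ c ∈ S, ∃ c' ∈ S, IsLocalRing.residue O c' ^ ℓ = IsLocalRing.residue O c := by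
  intro c hc
  obtain ⟨z, rfl⟩ := hS c hc
  exact ⟨_, hc, residue_intCast_pow ℓ z⟩

include hϖ hαO hσO hσfrac hσu hwO hwα hww hprime hcop hord hℓ hfrob hwu hrank in
/-- **(P-h), the pole input of `thick_at_crossing`.**  The pair `(a, b)`:
`redZero a = 0`, `θ(ρ U)^(ℓ-1) * redInf a = redInf b`, and `b ∉ y` at every non-cuspidal prime
`y ⊇ p_∞` (`u ∉ y`, `u - c ∉ y` for `c ∈ S`). -/
theorem exists_pole_input [CharZero E] [IsFractionRing O E] [FiniteDimensional E⟮α u'⟯ L]
    [Fact ℓ.Prime] [CharP (IsLocalRing.ResidueField O) ℓ]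
    (hu : Transcendental E (α u')) (S : Finset O) (hH : HorizUnram (E := E) S (α u'))
    (hSfrob : ∀ c ∈ S, ∃ c' ∈ S, IsLocalRing.residue O c' ^ ℓ = IsLocalRing.residue O c)
    (hθU : theta ρU ≠ 0) :
    ∃ a b : Chart O (α u'), rZ a = 0 ∧ theta ρU ^ (ℓ - 1) * rI a = rI b ∧
      ∀ y : Ideal (Chart O (α u')), y.IsPrime → RingHom.ker rI ≤ y →
        ι (polyChart u' X) ∉ y → (∀ c ∈ S, ι (polyChart u' (X - C c)) ∉ y) → b ∉ y := by
  obtain ⟨n, a, haZ, hab, -⟩ := exists_pole_pair ϖ hϖ α hαO σ hσO hσfrac u' U hσu w hwO ℓ hwα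
    hww hprime hcop hord hℓ hfrob hwu hrank hu S hH hθU
  refine ⟨a, W (ι (polyChart u' X) * ι (polyChart u' (∏ c ∈ S, (X - C c))) ^ n), haZ, ?_, ?_⟩
  · rw [hab]
    rfl
  · intro y hy hI hu' hS
    haveI := hy
    exact wChart_notMem ϖ hϖ α hαO σ hσO hσfrac u' U hσu w hwO ℓ hwα hww hfrob hwu S hSfrob y hI
      hu' hS n

end Pole

end Fermat.Agent.S36.A2
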