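import Mathlib
import Fermat.Agent.S36.A2.Pole

/-!
# S36, brick A2 / (P-h): the pole input without the hypothesis `θ(ρ U) ≠ 0`

In the setting of `S36/A2/Pole.lean`, `θ(ρ U) ≠ 0` follows from the hypotheses
`hcop : IsCoprime (ρ U).order ℓ`, `hord : (ρ U).order ≠ 0` of `TwoPrimesGauss.package` when `ℓ`
is the residue characteristic (`theta_ne_zero_of_coprime`).  `exists_pole_input'` is
`exists_pole_input` with that hypothesis discharged.
-/

set_option autoImplicit false
set_option linter.unusedSectionVars false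
set_option linter.style.haveILetI false

noncomputable section

namespace Fermat.Agent.S36.A2

open ModularCurve Polynomial IntermediateField
open Fermat.Agent.S30 Fermat.Agent.S34 Fermat.Agent.S34.TwoPrimesGauss
open Fermat.Agent.S34.Modular.ChartZero Fermat.Agent.S36.QFormalB Fermat.Agent.S30.Model

/-- In characteristic `ℓ`, a nonzero Laurent series of order prime to `ℓ` has `θ f ≠ 0`. -/
theorem theta_ne_zero_of_coprime {k : Type*} [CommRing k] [IsDomain k] (ℓ : ℕ) [Fact ℓ.Prime]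
    [CharP k ℓ] (f : LaurentSeries k) (hf : f ≠ 0) (hcop : IsCoprime f.order (ℓ : ℤ)) :
    theta f ≠ 0 := by
  intro h0
  have h1 := congrArg (fun x : LaurentSeries k => x.coeff f.order) h0
  simp only [coeff_theta, HahnSeries.coeff_zero] at h1
  rcases mul_eq_zero.mp h1 with h2 | h2
  · have h3 : (ℓ : ℤ) ∣ f.order := (CharP.intCast_eq_zero_iff k ℓ _).mp h2
    have h4 : IsUnit (ℓ : ℤ) := hcop.isUnit_of_dvd' h3 (dvd_refl _)
    have h5 : ℓ = 1 := by
      have := Int.isUnit_iff_natAbs_eq.mp h4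
      simpa using this
    exact (Fact.out : ℓ.Prime).one_lt.ne' h5
  · exact hf (HahnSeries.coeff_order_eq_zero.mp h2)

section Pole

variable {O E : Type*} [CommRing O] [IsDomain O] [IsDiscreteValuationRing O] [Field E]
  [Algebra O E] [FaithfulSMul O E]
  {L' L : Type*} [Field L'] [Field L] [Algebra O L'] [Algebra O L]
  [Algebra E L] [IsScalarTower O E L]
  (ϖ : O) (hϖ : Irreducible ϖ)
  (α : L' →+* L) (hαO : ∀ r : O, α (algebraMap O L' r) = algebraMap O L r)
  (σ : L →+* LaurentSeries E)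
  (hσO : ∀ r : O, σ (algebraMap O L r) = HahnSeries.C (algebraMap O E r))
  (hσfrac : ∀ x : L, σ x ∈ GaussDVR.fracField O E)
  (u' : L') (U : LaurentSeries O) (hσu : σ (α u') = GaussDVR.iota O E U)
  (w : L ≃+* L) (hwO : ∀ r : O, w (algebraMap O L r) = algebraMap O L r)
  (ℓ : ℕ) [NeZero ℓ]
  (hwα : ∀ x : L', σ (w (α x)) = qExpand E ℓ (σ (α x)))
  (hww : ∀ z : L, w (w z) = z)
  (hprime : Prime (piC u' ϖ))
  (hcop : IsCoprime (GaussDVR.rho O U).order (ℓ : ℤ)) (hord : (GaussDVR.rho O U).order ≠ 0)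
  (hℓ : 2 ≤ ℓ)
  (hfrob : qExpand (IsLocalRing.ResidueField O) ℓ (GaussDVR.rho O U) = GaussDVR.rho O U ^ ℓ)
  (hwu : IsIntegral (Algebra.adjoin O {α u'}) (w (α u')))
  (hrank : ∀ v : Option (Fin 1 ⊕ Fin ℓ) → Chart O (α u'),
    ∃ c : Option (Fin 1 ⊕ Fin ℓ) → Chart O u', c ≠ 0 ∧ ∑ i, incl α hαO u' (c i) * v i = 0)

local notation "rI" => redInf ϖ hϖ α σ hσO hσfrac u' U hσu
local notation "rZ" => redZero ϖ hϖ α σ hσO hσfrac u' U hσu w hwO ℓ hwα
local notation "rM" => redM ϖ hϖ α hαO σ hσO hσfrac u' U hσu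
local notation "ι" => incl α hαO u'
local notation "ρU" => GaussDVR.rho O U
local notation "W" => wChart α u' w hwO hww hwu

include hcop hord in
/-- `θ(ρ U) ≠ 0` from the hypotheses of `TwoPrimesGauss.package`. -/
theorem theta_rho_ne_zero [Fact ℓ.Prime] [CharP (IsLocalRing.ResidueField O) ℓ] :
    theta ρU ≠ 0 :=
  theta_ne_zero_of_coprime ℓ ρU (fun h => hord (by rw [h, HahnSeries.order_zero])) hcop

include hϖ hαO hσO hσfrac hσu hwO hwα hww hprime hcop hord hℓ hfrob hwu hrank in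
/-- **(P-h), the pole input of `thick_at_crossing`**, with `θ(ρ U) ≠ 0` discharged. -/
theorem exists_pole_input' [CharZero E] [IsFractionRing O E] [FiniteDimensional E⟮α u'⟯ L]
    [Fact ℓ.Prime] [CharP (IsLocalRing.ResidueField O) ℓ]
    (hu : Transcendental E (α u')) (S : Finset O) (hH : HorizUnram (E := E) S (α u'))
    (hSfrob : ∀ c ∈ S, ∃ c' ∈ S, IsLocalRing.residue O c' ^ ℓ = IsLocalRing.residue O c) :
    ∃ a b : Chart O (α u'), rZ a = 0 ∧ theta ρU ^ (ℓ - 1) * rI a = rI b ∧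
      ∀ y : Ideal (Chart O (α u')), y.IsPrime → RingHom.ker rI ≤ y →
        ι (polyChart u' X) ∉ y → (∀ c ∈ S, ι (polyChart u' (X - C c)) ∉ y) → b ∉ y :=
  exists_pole_input ϖ hϖ α hαO σ hσO hσfrac u' U hσu w hwO ℓ hwα hww hprime hcop hord hℓ hfrob
    hwu hrank hu S hH hSfrob (theta_rho_ne_zero U ℓ hcop hord)

end Pole

end Fermat.Agent.S36.A2
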