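import Mathlib
import Fermat.Agent.S36.A2.PoleCor
import Fermat.Agent.S36.ThickUnram

/-!
# S36, brick C1: the exit `gen_oo` / `gen_0` with the pole input discharged

`ThickUnram.gen_of_unram` (helper214) takes the pole input `hpole` (a Hasse pair `(a, b)` at every
crossing point) as a hypothesis.  `A2/Pole.lean` produces it from `Model.HorizUnram S (α u')` at
the TOP level (`L / E(u)` unramified over the affine `u`-line away from `u = c`, `c ∈ S`).

* `hpole_of_hnb` : the literal `hpole` of `ThickUnram.prinAt_of_unram` at a prime `y ⊇ p_∞`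
  which is non-cuspidal in the sense `hnb` of that theorem (`0 ∈ S`).
* `prinAt_of_unram_pole`, `gen_of_unram_pole` : `ThickUnram.prinAt_of_unram`,
  `ThickUnram.gen_of_unram` without `hpole`.
* `transcendental_alpha` : `α u'` is transcendental over `E` when `u'` is.
-/

set_option autoImplicit false
set_option linter.unusedSectionVars false
set_option linter.style.haveILetI false

noncomputable section

namespace Fermat.Agent.S36.A2

open ModularCurve Polynomial IntermediateField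
open Fermat.Agent.S30 Fermat.Agent.S34 Fermat.Agent.S34.TwoPrimesGauss
open Fermat.Agent.S36.PrinAt Fermat.Agent.S30.Model

section Exit

variable {O E : Type*} [CommRing O] [IsDomain O] [IsDiscreteValuationRing O] [Field E]
  [CharZero E] [Algebra O E] [IsFractionRing O E]
  {L' L : Type*} [Field L'] [Field L] [Algebra E L'] [Algebra O L'] [IsScalarTower O E L']
  [Algebra O L] [Algebra E L] [IsScalarTower O E L]
  (ϖ : O) (hϖ : Irreducible ϖ)
  (α : L' →+* L) (hαO : ∀ r : O, α (algebraMap O L' r) = algebraMap O L r)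
  (σ : L →+* LaurentSeries E)
  (hσO : ∀ r : O, σ (algebraMap O L r) = HahnSeries.C (algebraMap O E r))
  (hσfrac : ∀ x : L, σ x ∈ GaussDVR.fracField O E)
  (u' : L') (U : LaurentSeries O) (hσu : σ (α u') = GaussDVR.iota O E U)
  (w : L ≃+* L) (hwO : ∀ r : O, w (algebraMap O L r) = algebraMap O L r)
  (ℓ : ℕ) [NeZero ℓ]
  (hwα : ∀ x : L', σ (w (α x)) = qExpand E ℓ (σ (α x)))
  (hww : ∀ z : L, w (w z) = z)
  (hprime : Prime (piC u' ϖ))
  (hcop : IsCoprime (GaussDVR.rho O U).order (ℓ : ℤ)) (hord : (GaussDVR.rho O U).order ≠ 0)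
  (hℓ : 2 ≤ ℓ)
  (hfrob : qExpand (IsLocalRing.ResidueField O) ℓ (GaussDVR.rho O U) = GaussDVR.rho O U ^ ℓ)
  (hwu : IsIntegral (Algebra.adjoin O {α u'}) (w (α u')))
  (hrank : ∀ v : Option (Fin 1 ⊕ Fin ℓ) → Chart O (α u'),
    ∃ c : Option (Fin 1 ⊕ Fin ℓ) → Chart O u', c ≠ 0 ∧ ∑ i, incl α hαO u' (c i) * v i = 0)

local notation "rI" => redInf ϖ hϖ α σ hσO hσfrac u' U hσu
local notation "rZ" => redZero ϖ hϖ α σ hσO hσfrac u' U hσu w hwO ℓ hwα
local notation "ι" => incl α hαO u'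
local notation "ρU" => GaussDVR.rho O U

include hαO in
/-- `α` is `E`-linear. -/
theorem alpha_algebraMap_of_fraction (c : E) : α (algebraMap E L' c) = algebraMap E L c := by
  obtain ⟨a, b, -, rfl⟩ := IsFractionRing.div_surjective (A := O) c
  rw [map_div₀ (algebraMap E L'), ← IsScalarTower.algebraMap_apply O E L',
    ← IsScalarTower.algebraMap_apply O E L', map_div₀ α, hαO, hαO, map_div₀ (algebraMap E L),
    ← IsScalarTower.algebraMap_apply O E L, ← IsScalarTower.algebraMap_apply O E L]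

include hαO in
/-- `α u'` is transcendental over `E` when `u'` is. -/
theorem transcendental_alpha (hu : Transcendental E u') : Transcendental E (α u') := by
  let αE : L' →ₐ[E] L := { α with commutes' := alpha_algebraMap_of_fraction α hαO }
  intro h
  exact hu ((isAlgebraic_algHom_iff αE α.injective).mp h)

include hϖ hαO hσO hσfrac hσu hwO hwα hww hprime hcop hord hℓ hfrob hwu hrank in
/-- **The pole input in the literal shape `hpole` of `ThickUnram.prinAt_of_unram`**, at a prime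
`y ⊇ p_∞` which is non-cuspidal (`hnb`; `0 ∈ S`). -/
theorem hpole_of_hnb [Fact ℓ.Prime] [CharP (IsLocalRing.ResidueField O) ℓ]
    [FiniteDimensional E⟮α u'⟯ L] (huL : Transcendental E (α u')) (S : Finset O)
    (hHL : HorizUnram (E := E) S (α u')) (h0S : (0 : O) ∈ S)
    (hSfrob : ∀ c ∈ S, ∃ c' ∈ S, IsLocalRing.residue O c' ^ ℓ = IsLocalRing.residue O c)
    (y : Ideal (Chart O (α u'))) (hy : y.IsPrime) (hI : RingHom.ker rI ≤ y)
    (hnb : ∀ c ∈ S, ∀ m : Chart O u', ι m ∈ y → (m : L') ≠ u' - algebraMap O L' c) :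
    ∃ a b : Chart O (α u'), rZ a = 0 ∧ b ∉ y ∧
      QFormalB.theta ρU ^ (ℓ - 1) * rI a = rI b := by
  obtain ⟨a, b, haZ, hab, hb⟩ := exists_pole_input' ϖ hϖ α hαO σ hσO hσfrac u' U hσu w hwO ℓ hwα
    hww hprime hcop hord hℓ hfrob hwu hrank huL S hHL hSfrob
  refine ⟨a, b, haZ, hb y hy hI ?_ ?_, hab⟩
  · intro h
    apply hnb 0 h0S (polyChart u' X) h
    rw [coe_polyChart, aeval_X, map_zero, sub_zero]
  · intro c hc h
    apply hnb c hc (polyChart u' (X - C c)) h
    rw [coe_polyChart, map_sub, aeval_X, aeval_C]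

include hϖ hαO hσO hσfrac hσu hwO hwα hww hprime hcop hord hℓ hfrob hwu hrank in
/-- `ThickUnram.prinAt_of_unram` with the pole input discharged by `HorizUnram S (α u')`. -/
theorem prinAt_of_unram_pole [Fact ℓ.Prime] [CharP (IsLocalRing.ResidueField O) ℓ]
    (e : O) (he : IsUnit e) (hℓe : (ℓ : O) = ϖ * e)
    (hu : Transcendental E u') [FiniteDimensional E⟮u'⟯ L']
    (hi : GaussUnram (E := E) ϖ u') (S : Finset O) (hii : HorizUnram (E := E) S u')
    (hnormal : IsIntegrallyClosed (Chart O u' ⧸ Ideal.span {piC u' ϖ}))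
    (hreg : ∀ Q : Ideal (Chart O u'), Q.IsMaximal → piC u' ϖ ∈ Q → RegNB.RegAt (piC u' ϖ) Q)
    [FiniteDimensional E⟮α u'⟯ L] (hHL : HorizUnram (E := E) S (α u')) (h0S : (0 : O) ∈ S)
    (hSfrob : ∀ c ∈ S, ∃ c' ∈ S, IsLocalRing.residue O c' ^ ℓ = IsLocalRing.residue O c)
    (y : Ideal (Chart O (α u'))) (hy : y.IsMaximal) (hπy : piC (α u') ϖ ∈ y)
    (hnb : ∀ c ∈ S, ∀ m : Chart O u', ι m ∈ y → (m : L') ≠ u' - algebraMap O L' c) :
    (RingHom.ker rI ≤ y → ∃ t, t ≠ 0 ∧ PrinAt y (RingHom.ker rI) t) ∧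
      (RingHom.ker rZ ≤ y → ∃ t, t ≠ 0 ∧ PrinAt y (RingHom.ker rZ) t) :=
  Fermat.Agent.S36.ThickUnram.prinAt_of_unram ϖ hϖ α hαO σ hσO hσfrac u' U hσu w hwO ℓ hwα hww
    hprime hcop hord hℓ hfrob hwu hrank e he hℓe hu hi S hii hnormal hreg y hy hπy hnb
    (fun hI _ => hpole_of_hnb ϖ hϖ α hαO σ hσO hσfrac u' U hσu w hwO ℓ hwα hww hprime hcop hord hℓ
      hfrob hwu hrank (transcendental_alpha α hαO u' hu) S hHL h0S hSfrob y hy.isPrime hI hnb)

include hϖ hαO hσO hσfrac hσu hwO hwα hww hprime hcop hord hℓ hfrob hwu hrank in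
/-- **The C1 exit on the whole chart, pole input discharged** (`gen_oo`, `gen_0` of
`S36/C11.Data`): `ThickUnram.gen_of_unram` with `hpole` replaced by `HorizUnram S (α u')` at the
top level. -/
theorem gen_of_unram_pole [Fact ℓ.Prime] [CharP (IsLocalRing.ResidueField O) ℓ]
    (e : O) (he : IsUnit e) (hℓe : (ℓ : O) = ϖ * e)
    (hu : Transcendental E u') [FiniteDimensional E⟮u'⟯ L']
    (hi : GaussUnram (E := E) ϖ u') (S : Finset O) (hii : HorizUnram (E := E) S u')
    (hnormal : IsIntegrallyClosed (Chart O u' ⧸ Ideal.span {piC u' ϖ}))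
    (hreg : ∀ Q : Ideal (Chart O u'), Q.IsMaximal → piC u' ϖ ∈ Q → RegNB.RegAt (piC u' ϖ) Q)
    [FiniteDimensional E⟮α u'⟯ L] (hHL : HorizUnram (E := E) S (α u')) (h0S : (0 : O) ∈ S)
    (hSfrob : ∀ c ∈ S, ∃ c' ∈ S, IsLocalRing.residue O c' ^ ℓ = IsLocalRing.residue O c)
    (hnb : ∀ y : Ideal (Chart O (α u')), y.IsMaximal → RingHom.ker rI ≤ y → RingHom.ker rZ ≤ y →
      ∀ c ∈ S, ∀ m : Chart O u', ι m ∈ y → (m : L') ≠ u' - algebraMap O L' c) :
    (∀ y : Ideal (Chart O (α u')), y.IsMaximal → RingHom.ker rI ≤ y →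
        ∃ t, t ≠ 0 ∧ PrinAt y (RingHom.ker rI) t) ∧
      (∀ y : Ideal (Chart O (α u')), y.IsMaximal → RingHom.ker rZ ≤ y →
        ∃ t, t ≠ 0 ∧ PrinAt y (RingHom.ker rZ) t) :=
  Fermat.Agent.S36.ThickUnram.gen_of_unram ϖ hϖ α hαO σ hσO hσfrac u' U hσu w hwO ℓ hwα hww
    hprime hcop hord hℓ hfrob hwu hrank e he hℓe hu hi S hii hnormal hreg hnb
    (fun y hy hI hZ => hpole_of_hnb ϖ hϖ α hαO σ hσO hσfrac u' U hσu w hwO ℓ hwα hww hprime hcop
      hord hℓ hfrob hwu hrank (transcendental_alpha α hαO u' hu) S hHL h0S hSfrob y hy.isPrime hI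
      (hnb y hy hI hZ))

end Exit

end Fermat.Agent.S36.A2
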