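import Mathlib
import Fermat.Agent.S34.TwoPrimesRank
import Fermat.Agent.S36.Haupt4.Horiz
import Fermat.Agent.S36.A2.Pole

/-!
# S36, brick C1, input (3): the top-level horizontal inputs for `u₄`

`M` a level with `4 ∣ M`, `q` any level factor (`NeZero q`; no primality, no coprimality),
`E ⊆ ℚ̄` any intermediate field, `α = TwoPrimesRank.alphaHom M q E : LE M E → LE (M q) E`.

* `alpha_u4E` : `α u₄ = u₄` (the element `u4E (M q) E _` of the level-`M q` field);
* `finiteDimensional_alpha_u4E`, `transcendental_alpha_u4E`;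
* `horizUnram_alpha_u4E` : `Model.HorizUnram S (α u₄)` for every `S ∋ 0, -16` (any `O`-algebra
  structure on `LE (M q) E` through `E`);
* `frobStable_four` : `S = {0, -16}` is Frobenius-stable in the residue field (`hSfrob` of
  `A2.gen_of_unram_pole`).

These are exactly the top-level hypotheses `[FiniteDimensional E⟮α u'⟯ L]`, `hHL`, `h0S`, `hSfrob`
of `A2.gen_of_unram_pole` / `A2.exists_pole_input'` for `u' = u4E M E h4`.
-/

set_option autoImplicit false
set_option linter.unusedSectionVars false
set_option linter.style.haveILetI false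
set_option synthInstance.maxHeartbeats 400000

noncomputable section

namespace Fermat.Agent.S36.A2.TopLevel4

open ModularCurve IntermediateField Polynomial
open Fermat.Agent.S18.K1Defs Fermat.Agent.S30 Fermat.Agent.S34.TwoPrimesRank
open Fermat.Agent.S36.Haupt4 Fermat.Agent.S30.Model

local notation "Qb" => AlgebraicClosure ℚ

section Level

variable (M q : ℕ) [NeZero M] [NeZero q] (E : IntermediateField ℚ Qb)

/-- `α u₄ = u₄`. -/
theorem alpha_u4E (h4 : 4 ∣ M) :
    alphaHom M q E (u4E M E h4) = u4E (M * q) E (Dvd.dvd.mul_right h4 q) := by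
  apply Subtype.ext
  exact coe_heckeAlphaBar M q (u4E M E h4)

/-- `LE (M q) E` is finite over `E(α u₄)`. -/
theorem finiteDimensional_alpha_u4E (h4 : 4 ∣ M) :
    FiniteDimensional E⟮alphaHom M q E (u4E M E h4)⟯ (LE (M * q) E) := by
  rw [alpha_u4E]
  haveI := E2Deg.finite_LE (M * q) E
  exact finiteDimensional_u4E (M * q) E _ (E2Deg.jE (M * q) E) rfl

/-- `α u₄` is transcendental over `E`. -/
theorem transcendental_alpha_u4E (h4 : 4 ∣ M) :
    Transcendental E (alphaHom M q E (u4E M E h4)) := by
  rw [alpha_u4E]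
  exact transcendental_u4E (M * q) E _

/-- **Hypothesis (ii) at the top level**: `LE (M q) E / E(α u₄)` is unramified over the affine
`u`-line away from `u = 0, -16`. -/
theorem horizUnram_alpha_u4E (h4 : 4 ∣ M) {O : Type*} [CommRing O] [Algebra O E]
    [Algebra O (LE (M * q) E)] [IsScalarTower O E (LE (M * q) E)]
    (S : Finset O) (h0 : (0 : O) ∈ S) (h16 : (-16 : O) ∈ S) :
    HorizUnram (E := E) S (alphaHom M q E (u4E M E h4)) := by
  rw [alpha_u4E]
  haveI := E2Deg.finite_LE (M * q) E
  haveI := finiteDimensional_u4E (M * q) E (Dvd.dvd.mul_right h4 q) (E2Deg.jE (M * q) E) rfl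
  exact horizUnram_u4 (M * q) E _ S ⟨0, h0, map_zero _⟩ ⟨-16, h16, by rw [map_neg, map_ofNat]⟩

end Level

/-- `S = {0, -16}` is Frobenius-stable in the residue field. -/
theorem frobStable_four {O : Type*} [CommRing O] [IsLocalRing O] [DecidableEq O] (ℓ : ℕ)
    [Fact ℓ.Prime] [CharP (IsLocalRing.ResidueField O) ℓ] :
    ∀ c ∈ ({0, -16} : Finset O), ∃ c' ∈ ({0, -16} : Finset O),
      IsLocalRing.residue O c' ^ ℓ = IsLocalRing.residue O c := by
  intro c hc
  refine ⟨c, hc, ?_⟩
  simp only [Finset.mem_insert, Finset.mem_singleton] at hc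
  have key : ∀ z : ℤ, IsLocalRing.residue O (z : O) ^ ℓ = IsLocalRing.residue O (z : O) := by
    intro z
    rw [map_intCast, ← frobenius_def, map_intCast]
  rcases hc with rfl | rfl
  · simpa using key 0
  · have := key (-16)
    push_cast at this
    exact this

end Fermat.Agent.S36.A2.TopLevel4
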