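import Mathlib
import Fermat.Agent.S34.TwoPrimesRank
import Fermat.Agent.S36.Haupt9.Horiz
import Fermat.Agent.S36.A2.Pole

/-!
# S36, brick C1, input (3): the top-level horizontal inputs for `u₉` (`q = 2` twin)

`M` a level with `9 ∣ M`, `q` any level factor, `E ⊆ ℚ̄` any intermediate field,
`α = TwoPrimesRank.alphaHom M q E : LE M E → LE (M q) E`.

* `alpha_u9E` : `α u₉ = u₉`;
* `finiteDimensional_alpha_u9E`, `transcendental_alpha_u9E`;
* `horizUnram_alpha_u9E` : `Model.HorizUnram S (α u₉)` for every `S ∋ 0, c, c'` with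
  `c + c' = -9`, `c c' = 27` (the roots of `X² + 9 X + 27`);
* `frobStable_nine` : `S = {0, c, c'}` is Frobenius-stable in the residue field of any
  characteristic `ℓ` (Frobenius permutes the two roots): `hSfrob` of `A2.gen_of_unram_pole`.
-/

set_option autoImplicit false
set_option linter.unusedSectionVars false
set_option linter.style.haveILetI false
set_option synthInstance.maxHeartbeats 400000

noncomputable section

namespace Fermat.Agent.S36.A2.TopLevel9

open ModularCurve IntermediateField Polynomial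
open Fermat.Agent.S18.K1Defs Fermat.Agent.S30 Fermat.Agent.S34.TwoPrimesRank
open Fermat.Agent.S36.Haupt9 Fermat.Agent.S30.Model

local notation "Qb" => AlgebraicClosure ℚ

section Level

variable (M q : ℕ) [NeZero M] [NeZero q] (E : IntermediateField ℚ Qb)

/-- `α u₉ = u₉`. -/
theorem alpha_u9E (h9 : 9 ∣ M) :
    alphaHom M q E (u9E M E h9) = u9E (M * q) E (Dvd.dvd.mul_right h9 q) := by
  apply Subtype.ext
  exact coe_heckeAlphaBar M q (u9E M E h9)

/-- `LE (M q) E` is finite over `E(α u₉)`. -/
theorem finiteDimensional_alpha_u9E (h9 : 9 ∣ M) :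
    FiniteDimensional E⟮alphaHom M q E (u9E M E h9)⟯ (LE (M * q) E) := by
  rw [alpha_u9E]
  haveI := E2Deg.finite_LE (M * q) E
  exact finiteDimensional_u9E (M * q) E _ (E2Deg.jE (M * q) E) rfl

/-- `α u₉` is transcendental over `E`. -/
theorem transcendental_alpha_u9E (h9 : 9 ∣ M) :
    Transcendental E (alphaHom M q E (u9E M E h9)) := by
  rw [alpha_u9E]
  exact transcendental_u9E (M * q) E _

/-- **Hypothesis (ii) at the top level**: `LE (M q) E / E(α u₉)` is unramified over the affine
`u`-line away from `u = 0` and the two roots of `X² + 9 X + 27`. -/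
theorem horizUnram_alpha_u9E (h9 : 9 ∣ M) {O : Type*} [CommRing O] [Algebra O E]
    [Algebra O (LE (M * q) E)] [IsScalarTower O E (LE (M * q) E)]
    (S : Finset O) (h0 : (0 : O) ∈ S)
    (hw : ∃ c ∈ S, ∃ c' ∈ S, c + c' = -9 ∧ c * c' = 27) :
    HorizUnram (E := E) S (alphaHom M q E (u9E M E h9)) := by
  rw [alpha_u9E]
  haveI := E2Deg.finite_LE (M * q) E
  haveI := finiteDimensional_u9E (M * q) E (Dvd.dvd.mul_right h9 q) (E2Deg.jE (M * q) E) rfl
  obtain ⟨c, hc, c', hc', hsum, hprod⟩ := hw
  refine horizUnram_u9 (M * q) E _ S ⟨0, h0, map_zero _⟩ ⟨c, hc, c', hc', ?_, ?_⟩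
  · rw [← map_add, hsum, map_neg, map_ofNat]
  · rw [← map_mul, hprod, map_ofNat]

end Level

/-- `S = {0, c, c'}` (`c + c' = -9`, `c c' = 27`) is Frobenius-stable in the residue field:
Frobenius permutes the two roots of `X² + 9 X + 27`. -/
theorem frobStable_nine {O : Type*} [CommRing O] [IsLocalRing O] [DecidableEq O] (ℓ : ℕ)
    [Fact ℓ.Prime] [CharP (IsLocalRing.ResidueField O) ℓ] (c c' : O) (hsum : c + c' = -9)
    (hprod : c * c' = 27) :
    ∀ x ∈ ({0, c, c'} : Finset O), ∃ x' ∈ ({0, c, c'} : Finset O),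
      IsLocalRing.residue O x' ^ ℓ = IsLocalRing.residue O x := by
  set r := IsLocalRing.residue O c with hr
  set r' := IsLocalRing.residue O c' with hr'
  have hs : r + r' = -9 := by rw [hr, hr', ← map_add, hsum, map_neg, map_ofNat]
  have hp : r * r' = 27 := by rw [hr, hr', ← map_mul, hprod, map_ofNat]
  have hnat : ∀ n : ℕ, ((n : IsLocalRing.ResidueField O)) ^ ℓ = n := fun n => by
    rw [← frobenius_def, map_natCast]
  -- Frobenius maps roots of `X² + 9 X + 27` to roots
  have hroot : ∀ t : IsLocalRing.ResidueField O, t ^ 2 + 9 * t + 27 = 0 →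
      (t ^ ℓ) ^ 2 + 9 * t ^ ℓ + 27 = 0 := by
    intro t ht
    have h1 := congrArg (frobenius (IsLocalRing.ResidueField O) ℓ) ht
    rw [map_add, map_add, map_mul, map_pow, map_zero, frobenius_def] at h1
    have h9 : frobenius (IsLocalRing.ResidueField O) ℓ 9 = 9 := by
      have := map_natCast (frobenius (IsLocalRing.ResidueField O) ℓ) 9
      exact_mod_cast this
    have h27 : frobenius (IsLocalRing.ResidueField O) ℓ 27 = 27 := by
      have := map_natCast (frobenius (IsLocalRing.ResidueField O) ℓ) 27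
      exact_mod_cast this
    rw [h9, h27] at h1
    exact h1
  have hfac : ∀ t : IsLocalRing.ResidueField O, t ^ 2 + 9 * t + 27 = (t - r) * (t - r') := by
    intro t
    linear_combination t * hs - hp
  have hor : ∀ t : IsLocalRing.ResidueField O, t ^ 2 + 9 * t + 27 = 0 → t ^ ℓ = r ∨ t ^ ℓ = r' := by
    intro t ht
    have h1 := hroot t ht
    rw [hfac] at h1
    rcases mul_eq_zero.mp h1 with h2 | h2
    · exact Or.inl (sub_eq_zero.mp h2)
    · exact Or.inr (sub_eq_zero.mp h2)
  have hrr : r ^ 2 + 9 * r + 27 = 0 := by rw [hfac, sub_self, zero_mul]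
  have hrr' : r' ^ 2 + 9 * r' + 27 = 0 := by rw [hfac, sub_self, mul_zero]
  have hinj : ∀ a b : IsLocalRing.ResidueField O, a ^ ℓ = b ^ ℓ → a = b := fun a b h =>
    frobenius_inj (IsLocalRing.ResidueField O) ℓ h
  intro x hx
  simp only [Finset.mem_insert, Finset.mem_singleton] at hx
  rcases hx with h | h | h
  · rw [h]
    refine ⟨0, by simp, ?_⟩
    rw [map_zero, zero_pow (Fact.out : ℓ.Prime).ne_zero]
  · -- `x = c`
    rw [h]
    rcases hor r hrr with h1 | h1
    · exact ⟨c, by simp, h1⟩
    · rcases hor r' hrr' with h2 | h2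
      · exact ⟨c', by simp, h2⟩
      · exact ⟨c, by simp, by rw [← hr, h1, hinj r r' (h1.trans h2.symm)]⟩
  · -- `x = c'`
    rw [h]
    rcases hor r' hrr' with h1 | h1
    · rcases hor r hrr with h2 | h2
      · exact ⟨c', by simp, by rw [← hr', h1, hinj r' r (h1.trans h2.symm)]⟩
      · exact ⟨c, by simp, h2⟩
    · exact ⟨c', by simp, h1⟩

end Fermat.Agent.S36.A2.TopLevel9
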